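import Mathlib
import Fermat.Agent.S20
import Fermat.Agent.Lib.Hecke.QCoeff
import Fermat.Agent.Lib.S16.Assembly

/-!
# S16, block (DUAL): the small primes `p ∈ {2, 3, 5}`

For `p < 7` the space `S₂(Γ₀(p))` is zero (S20 and the genus formula), hence the lattice Hecke
algebra is the zero ring and `# (𝕋 ⧸ I) = 1 = eisensteinNumerator p`.
-/

set_option autoImplicit false

namespace Fermat.Agent.Lib.M2

open ModularCurve CuspForm CongruenceSubgroup

theorem m2d_genusFormula_small (p : ℕ) (hp : p.Prime) (h7 : p < 7) : genusFormula p = 0 := by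
  have hpsi : dedekindPsi p = p + 1 := by
    have := Fermat.Agent.Lib.RR.Cosets.dedekindPsi_prime_pow hp (k := 1) one_pos
    simpa using this
  have hcc2 : cuspCount 2 = 2 := by decide
  have hcc3 : cuspCount 3 = 2 := by decide
  have hcc5 : cuspCount 5 = 2 := by decide
  have hn22 : nuTwo 2 = 1 := by
    unfold nuTwo
    rw [Nat.card_eq_fintype_card]
    decide
  have hn23 : nuTwo 3 = 0 := by
    unfold nuTwo
    rw [Nat.card_eq_fintype_card]
    decide
  have hn25 : nuTwo 5 = 2 := by
    unfold nuTwo
    rw [Nat.card_eq_fintype_card]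
    decide
  have hn32 : nuThree 2 = 0 := by
    unfold nuThree
    rw [Nat.card_eq_fintype_card]
    decide
  have hn33 : nuThree 3 = 1 := by
    unfold nuThree
    rw [Nat.card_eq_fintype_card]
    decide
  have hn35 : nuThree 5 = 0 := by
    unfold nuThree
    rw [Nat.card_eq_fintype_card]
    decide
  unfold genusFormula
  rw [hpsi]
  interval_cases p
  · exact absurd hp (by decide)
  · exact absurd hp (by decide)
  · rw [hcc2, hn22, hn32]; norm_num
  · rw [hcc3, hn23, hn33]; norm_num
  · exact absurd hp (by decide)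
  · rw [hcc5, hn25, hn35]; norm_num
  · exact absurd hp (by decide)

theorem m2d_eisensteinNumerator_small (p : ℕ) (hp : p.Prime) (h7 : p < 7) :
    eisensteinNumerator p = 1 := by
  interval_cases p
  · exact absurd hp (by decide)
  · exact absurd hp (by decide)
  · decide
  · decide
  · exact absurd hp (by decide)
  · decide
  · exact absurd hp (by decide)

theorem m2d_cuspForm_subsingleton_small (p : ℕ) [NeZero p] (hp : p.Prime) (h7 : p < 7) :
    Subsingleton (CuspForm (Gamma0 p) 2) := by
  have h0 : Module.finrank ℂ (CuspForm (Gamma0 p) 2) = 0 := by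
    have := Fermat.Agent.S20.result p
    rw [m2d_genusFormula_small p hp h7] at this
    exact_mod_cast this
  have hfd : FiniteDimensional ℂ (CuspForm (Gamma0 p) 2) :=
    Fermat.Agent.Lib.QCoeff.finiteDimensional
  exact Module.finrank_zero_iff.mp h0

open Fermat.Agent.Lib.S16 in
/-- **S16 for `p ∈ {2, 3, 5}`.** -/
theorem m2d_small (p : ℕ) [hp : Fact p.Prime] (h7 : p < 7) :
    Nat.card (↥(heckeLatticeAlgebra p ∅) ⧸ s16_I p) = eisensteinNumerator p := by
  rw [m2d_eisensteinNumerator_small p hp.out h7]
  have h1 : Subsingleton (CuspForm (Gamma0 p) 2) := m2d_cuspForm_subsingleton_small p hp.out h7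
  have h2 : Subsingleton ↥(intLattice p 2) := inferInstance
  have h3 : Subsingleton (Module.End ℤ ↥(intLattice p 2)) :=
    ⟨fun a b => LinearMap.ext fun x => Subsingleton.elim _ _⟩
  have h4 : Subsingleton ↥(heckeLatticeAlgebra p ∅) :=
    ⟨fun a b => Subtype.ext (Subsingleton.elim _ _)⟩
  have h5 : Subsingleton (↥(heckeLatticeAlgebra p ∅) ⧸ s16_I p) :=
    ⟨fun a b => by
      obtain ⟨a, rfl⟩ := Ideal.Quotient.mk_surjective a
      obtain ⟨b, rfl⟩ := Ideal.Quotient.mk_surjective b
      rw [Subsingleton.elim a b]⟩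
  exact Nat.card_unique

end Fermat.Agent.Lib.M2
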