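/-
S16 / M2 shared block (EIS), part 1 (helper2): the weight-2 Eisenstein forms of level `N`
`m2e_eis N d = d·E₂(d z) − E₂(z)` for `d ∣ N`, as honest `ModularForm (Gamma0 N) 2`,
built from Mathlib's quasi-modular `E2` and its transformation law `E2_slash_action`.
-/
import Mathlib
import Fermat.Prelude.Def_FLTPrelim_Modularity
import Fermat.Prelude.Def_ModularForm_HeckeOperator

set_option autoImplicit false

open UpperHalfPlane hiding I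
open Real Complex Filter Topology
open scoped Manifold MatrixGroups ModularForm
open EisensteinSeries ModularForm ModularGroup Matrix.SpecialLinearGroup

namespace Fermat.Agent.Lib.M2

/-- The function `z ↦ d·E₂(dz) − E₂(z)`. -/
noncomputable def m2e_fun (d : ℕ) : ℍ → ℂ := E2 ∣[(2 : ℤ)] heckeDiagMatrix d - E2

theorem m2e_fun_apply {d : ℕ} (hd : d ≠ 0) (τ : ℍ) :
    m2e_fun d τ = (d : ℂ) * E2 (heckeDiagMatrix d • τ) - E2 τ := by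
  simp only [m2e_fun, Pi.sub_apply, slash_heckeDiagMatrix_apply 2 hd]
  norm_num

theorem m2e_det_aux (d : ℕ) (γ : SL(2, ℤ)) (h : (d : ℤ) ∣ γ 1 0) :
    γ 0 0 * γ 1 1 - γ 0 1 * (d : ℤ) * (γ 1 0 / (d : ℤ)) = 1 := by
  have h2 : γ.1 0 0 * γ.1 1 1 - γ.1 0 1 * γ.1 1 0 = 1 := by
    rw [← Matrix.det_fin_two]; exact γ.2
  rw [mul_assoc, Int.mul_ediv_cancel' h]
  exact h2

/-- The conjugate `diag(d,1) γ diag(d,1)⁻¹` of an element `γ` with `d ∣ γ₁₀`. -/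
def m2e_conj (d : ℕ) (γ : SL(2, ℤ)) (h : (d : ℤ) ∣ γ 1 0) : SL(2, ℤ) :=
  ⟨!![γ 0 0, γ 0 1 * d; γ 1 0 / d, γ 1 1], by
    rw [Matrix.det_fin_two_of]; exact m2e_det_aux d γ h⟩

theorem m2e_diag_mul {d : ℕ} (hd : d ≠ 0) (γ : SL(2, ℤ)) (h : (d : ℤ) ∣ γ 1 0) :
    heckeDiagMatrix d * (mapGL ℝ γ) = (mapGL ℝ (m2e_conj d γ h)) * heckeDiagMatrix d := by
  apply Matrix.GeneralLinearGroup.ext
  intro i j
  have hdiv : ((γ 1 0 / (d : ℤ) : ℤ) : ℝ) * (d : ℝ) = ((γ 1 0 : ℤ) : ℝ) := by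
    have := Int.ediv_mul_cancel h
    exact_mod_cast this
  fin_cases i <;> fin_cases j <;>
    simp [val_heckeDiagMatrix hd, Matrix.mul_apply, Fin.sum_univ_two,
      m2e_conj, mapGL, hdiv, mul_comm]

theorem m2e_denom_SL (γ : SL(2, ℤ)) (z : ℍ) :
    denom (mapGL ℝ γ) z = (γ 1 0 : ℂ) * z + γ 1 1 := by
  simp [denom]

theorem m2e_D2_apply (γ : SL(2, ℤ)) (z : ℍ) :
    D2 γ z = 2 * π * I * (γ 1 0 : ℂ) / ((γ 1 0 : ℂ) * z + γ 1 1) := by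
  rw [← m2e_denom_SL]; rfl

theorem m2e_D2_conj_slash {d : ℕ} (hd : d ≠ 0) (γ : SL(2, ℤ)) (h : (d : ℤ) ∣ γ 1 0) :
    (D2 (m2e_conj d γ h)) ∣[(2 : ℤ)] heckeDiagMatrix d = D2 γ := by
  ext τ
  rw [slash_heckeDiagMatrix_apply 2 hd, m2e_D2_apply, m2e_D2_apply, coe_heckeDiagMatrix_smul hd]
  have hdiv : ((γ 1 0 / (d : ℤ) : ℤ) : ℂ) * (d : ℂ) = ((γ 1 0 : ℤ) : ℂ) := by
    have := Int.ediv_mul_cancel h
    exact_mod_cast this
  have e10 : (m2e_conj d γ h) 1 0 = γ 1 0 / (d : ℤ) := rfl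
  have e11 : (m2e_conj d γ h) 1 1 = γ 1 1 := rfl
  rw [e10, e11]
  have hd' : (d : ℂ) ≠ 0 := by exact_mod_cast hd
  rw [← hdiv]
  norm_num
  rw [show ((γ 1 0 / (d : ℤ) : ℤ) : ℂ) * (d : ℂ) * (τ : ℂ) =
    ((γ 1 0 / (d : ℤ) : ℤ) : ℂ) * ((d : ℂ) * τ) by ring]
  ring

/-- Slash invariance of `d·E₂(dz) − E₂(z)` under every `γ ∈ SL(2,ℤ)` with `d ∣ γ₁₀`. -/
theorem m2e_fun_slash {d : ℕ} (hd : d ≠ 0) (γ : SL(2, ℤ)) (h : (d : ℤ) ∣ γ 1 0) :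
    (m2e_fun d) ∣[(2 : ℤ)] (mapGL ℝ γ) = m2e_fun d := by
  have h1 : (E2 ∣[(2 : ℤ)] heckeDiagMatrix d) ∣[(2 : ℤ)] (mapGL ℝ γ) =
      E2 ∣[(2 : ℤ)] heckeDiagMatrix d - (1 / (2 * riemannZeta 2)) • D2 γ := by
    rw [← SlashAction.slash_mul, m2e_diag_mul hd γ h, SlashAction.slash_mul]
    have := E2_slash_action (m2e_conj d γ h)
    rw [show E2 ∣[(2 : ℤ)] (mapGL ℝ (m2e_conj d γ h)) = E2 ∣[(2 : ℤ)] (m2e_conj d γ h) from rfl,
      this]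
    rw [sub_eq_add_neg, SlashAction.add_slash, SlashAction.neg_slash, ModularForm.smul_slash,
      σ_heckeDiagMatrix, m2e_D2_conj_slash hd γ h]
    simp [sub_eq_add_neg]
  have h2 : E2 ∣[(2 : ℤ)] (mapGL ℝ γ) = E2 - (1 / (2 * riemannZeta 2)) • D2 γ :=
    E2_slash_action γ
  unfold m2e_fun
  rw [sub_eq_add_neg, SlashAction.add_slash, SlashAction.neg_slash, h1, h2]
  abel

/-- `D2 γ` is bounded at `i∞`. -/
theorem m2e_D2_isBoundedAtImInfty (γ : SL(2, ℤ)) : IsBoundedAtImInfty (D2 γ) := by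
  rw [UpperHalfPlane.isBoundedAtImInfty_iff]
  refine ⟨2 * π, 1, fun z hz => ?_⟩
  rw [m2e_D2_apply]
  rcases eq_or_ne (γ 1 0) 0 with h0 | h0
  · simp [h0]; positivity
  · have hc1 : (1 : ℝ) ≤ |((γ 1 0 : ℤ) : ℝ)| := by
      have : (1 : ℤ) ≤ |γ 1 0| := Int.one_le_abs h0
      exact_mod_cast this
    have him : ((γ 1 0 : ℂ) * z + γ 1 1).im = (γ 1 0 : ℝ) * z.im := by
      simp
    have hlow : |((γ 1 0 : ℤ) : ℝ)| * z.im ≤ ‖(γ 1 0 : ℂ) * z + γ 1 1‖ := by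
      calc |((γ 1 0 : ℤ) : ℝ)| * z.im = |((γ 1 0 : ℂ) * z + γ 1 1).im| := by
            rw [him, abs_mul, abs_of_pos z.im_pos]
        _ ≤ _ := Complex.abs_im_le_norm _
    have hpos : 0 < |((γ 1 0 : ℤ) : ℝ)| * z.im := by
      have := z.im_pos; positivity
    rw [norm_div]
    rw [div_le_iff₀ (lt_of_lt_of_le hpos hlow)]
    calc ‖2 * (π : ℂ) * I * (γ 1 0 : ℂ)‖ = 2 * π * |((γ 1 0 : ℤ) : ℝ)| := by
          simp [abs_of_pos Real.pi_pos]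
      _ ≤ 2 * π * (|((γ 1 0 : ℤ) : ℝ)| * z.im) := by
          have : |((γ 1 0 : ℤ) : ℝ)| ≤ |((γ 1 0 : ℤ) : ℝ)| * z.im := by
            nlinarith [abs_nonneg ((γ 1 0 : ℤ) : ℝ)]
          have h2 : 0 < 2 * π := by positivity
          nlinarith
      _ ≤ 2 * π * ‖(γ 1 0 : ℂ) * z + γ 1 1‖ := by
          have h2 : 0 < 2 * π := by positivity
          nlinarith

/-- `E2` is bounded at every cusp of `SL(2,ℤ)` (in weight 2). -/
theorem m2e_E2_isBoundedAt {c : OnePoint ℝ} (hc : IsCusp c 𝒮ℒ) : c.IsBoundedAt E2 2 := by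
  rw [OnePoint.isBoundedAt_iff_forall_SL2Z hc]
  intro γ _
  rw [E2_slash_action]
  exact isBoundedAtImInfty_E2.sub ((m2e_D2_isBoundedAtImInfty γ).const_smul_left _)

theorem m2e_isCusp_rat_smul {c : OnePoint ℝ} (hc : IsCusp c 𝒮ℒ) (g : GL (Fin 2) ℚ) :
    IsCusp (Matrix.GeneralLinearGroup.map (Rat.castHom ℝ) g • c) 𝒮ℒ := by
  rw [isCusp_SL2Z_iff] at hc ⊢
  obtain ⟨c, rfl⟩ := hc
  exact ⟨g • c, by rw [← Rat.coe_castHom, OnePoint.map_smul]⟩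

/-- `E2 ∣[2] g` is bounded at every cusp, for every rational matrix `g`. -/
theorem m2e_E2_slash_isBoundedAt (g : GL (Fin 2) ℚ) {c : OnePoint ℝ} (hc : IsCusp c 𝒮ℒ) :
    c.IsBoundedAt (E2 ∣[(2 : ℤ)] (Matrix.GeneralLinearGroup.map (Rat.castHom ℝ) g)) 2 :=
  OnePoint.IsBoundedAt.smul_iff.mp (m2e_E2_isBoundedAt (m2e_isCusp_rat_smul hc g))

theorem m2e_heckeDiagMatrix_eq_map (p : ℕ) :
    ∃ g : GL (Fin 2) ℚ, heckeDiagMatrix p = Matrix.GeneralLinearGroup.map (Rat.castHom ℝ) g := by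
  rcases eq_or_ne p 0 with rfl | hp
  · exact ⟨1, by rw [heckeDiagMatrix_zero, map_one]⟩
  · refine ⟨Matrix.GeneralLinearGroup.mkOfDetNeZero !![(p : ℚ), 0; 0, 1]
      (by rw [Matrix.det_fin_two_of]; simpa using hp), ?_⟩
    ext i j
    fin_cases i <;> fin_cases j <;>
      simp [heckeDiagMatrix, hp, upperTriangularGL, Matrix.GeneralLinearGroup.mkOfDetNeZero]

theorem m2e_fun_isBoundedAt (d : ℕ) {c : OnePoint ℝ} (hc : IsCusp c 𝒮ℒ) :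
    c.IsBoundedAt (m2e_fun d) 2 := by
  obtain ⟨g, hg⟩ := m2e_heckeDiagMatrix_eq_map d
  unfold m2e_fun
  rw [sub_eq_add_neg]
  refine OnePoint.IsBoundedAt.add (hg ▸ m2e_E2_slash_isBoundedAt g hc) ?_
  intro γ hγ
  rw [SlashAction.neg_slash]
  exact (m2e_E2_isBoundedAt hc γ hγ).neg_left

theorem m2e_fun_mdifferentiable (d : ℕ) : MDiff (m2e_fun d) :=
  (E2_mdifferentiable.slash 2 _).sub E2_mdifferentiable

theorem m2e_dvd_of_mem_Gamma0 {N : ℕ} {γ : SL(2, ℤ)} (h : γ ∈ CongruenceSubgroup.Gamma0 N) :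
    (N : ℤ) ∣ γ 1 0 := by
  rw [CongruenceSubgroup.Gamma0_mem] at h
  exact (ZMod.intCast_zmod_eq_zero_iff_dvd _ _).mp h

/-- The Eisenstein form `d·E₂(dz) − E₂(z) ∈ M₂(Γ₀(N))`, for `d ∣ N`. -/
noncomputable def m2e_eis (N d : ℕ) [NeZero N] (hd : d ∣ N) :
    ModularForm (CongruenceSubgroup.Gamma0 N) 2 where
  toFun := m2e_fun d
  slash_action_eq' := by
    intro γ hγ
    obtain ⟨γ₀, hγ₀, rfl⟩ := hγ
    have hd0 : d ≠ 0 := fun h => NeZero.ne N (by simpa [h] using hd)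
    exact m2e_fun_slash hd0 γ₀
      (dvd_trans (Int.natCast_dvd_natCast.mpr hd) (m2e_dvd_of_mem_Gamma0 hγ₀))
  holo' := m2e_fun_mdifferentiable d
  bdd_at_cusps' := fun hc =>
    m2e_fun_isBoundedAt d ((Subgroup.IsArithmetic.isCusp_iff_isCusp_SL2Z _).mp hc)

@[simp] theorem m2e_eis_coe (N d : ℕ) [NeZero N] (hd : d ∣ N) :
    (m2e_eis N d hd : ℍ → ℂ) = m2e_fun d := rfl

theorem m2e_eis_apply (N d : ℕ) [NeZero N] (hd : d ∣ N) (τ : ℍ) :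
    m2e_eis N d hd τ = (d : ℂ) * E2 (heckeDiagMatrix d • τ) - E2 τ :=
  m2e_fun_apply (fun h => NeZero.ne N (by simpa [h] using hd)) τ

end Fermat.Agent.Lib.M2
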