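/-
S16 / M2 shared block (EIS), part 2 (helper2): the `q`-expansion of
`m2e_eis N d = d·E₂(d z) − E₂(z)`, the arithmetic of `σ^{(p)}(n) = ∑_{t ∣ n, p ∤ t} t`, and the
Hecke eigen-relations of the coefficient sequences.
-/
import Mathlib
import Fermat.Agent.Lib.M2.EisDef
import Fermat.Prelude.Thm_CongruenceSubgroup_one_mem_strictPeriods_Gamma0

set_option autoImplicit false

open UpperHalfPlane hiding I
open Real Complex Filter Topology
open scoped Manifold MatrixGroups ModularForm ArithmeticFunction.sigma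
open EisensteinSeries ModularForm ModularGroup Matrix.SpecialLinearGroup ArithmeticFunction

namespace Fermat.Agent.Lib.M2

/-! ### Arithmetic of divisor sums -/

/-- sum of the divisors of `m` that are prime to `p`. -/
def m2e_sig (p m : ℕ) : ℕ := ∑ t ∈ m.divisors with ¬ p ∣ t, t

@[simp] theorem m2e_sig_zero (p : ℕ) : m2e_sig p 0 = 0 := by simp [m2e_sig]

theorem m2e_sig_one {p : ℕ} (hp : p.Prime) : m2e_sig p 1 = 1 := by
  simp [m2e_sig, Finset.filter_singleton, hp.one_lt.ne']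

/-- `σ^{(p)}(n p) = σ^{(p)}(n)`. -/
theorem m2e_sig_mul_self {p : ℕ} (hp : p.Prime) (n : ℕ) : m2e_sig p (n * p) = m2e_sig p n := by
  rcases eq_or_ne n 0 with rfl | hn
  · simp
  unfold m2e_sig
  congr 1
  ext t
  simp only [Finset.mem_filter, Nat.mem_divisors]
  constructor
  · rintro ⟨⟨h1, _⟩, h2⟩
    refine ⟨⟨?_, hn⟩, h2⟩
    have hcop : Nat.Coprime t p := (Nat.Prime.coprime_iff_not_dvd hp).mpr h2 |>.symm
    exact hcop.dvd_of_dvd_mul_right h1
  · rintro ⟨⟨h1, _⟩, h2⟩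
    exact ⟨⟨dvd_mul_of_dvd_left h1 p, mul_ne_zero hn hp.ne_zero⟩, h2⟩

/-- splitting the divisor sum according to divisibility by `p`. -/
theorem m2e_sigma_eq_sig_add {p : ℕ} (hp : p.Prime) {m : ℕ} (hm : m ≠ 0) :
    σ 1 m = m2e_sig p m + p * (if p ∣ m then σ 1 (m / p) else 0) := by
  rw [sigma_one_apply,
    ← Finset.sum_filter_not_add_sum_filter (s := m.divisors) (p := fun t => p ∣ t)]
  unfold m2e_sig
  congr 1
  split_ifs with hpm
  · rw [sigma_one_apply, Finset.mul_sum]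
    symm
    apply Finset.sum_bij (fun t _ => p * t)
    · intro t ht
      simp only [Finset.mem_filter, Nat.mem_divisors] at ht ⊢
      refine ⟨⟨?_, hm⟩, dvd_mul_right p t⟩
      obtain ⟨k, rfl⟩ := hpm
      rw [Nat.mul_div_cancel_left _ hp.pos] at ht
      exact Nat.mul_dvd_mul_left p ht.1
    · intro a _ b _ h
      exact Nat.eq_of_mul_eq_mul_left hp.pos h
    · intro b hb
      simp only [Finset.mem_filter, Nat.mem_divisors] at hb
      obtain ⟨⟨hbm, _⟩, ⟨c, rfl⟩⟩ := hb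
      refine ⟨c, ?_, rfl⟩
      simp only [Nat.mem_divisors]
      obtain ⟨k, rfl⟩ := hpm
      rw [Nat.mul_div_cancel_left _ hp.pos]
      refine ⟨(Nat.mul_dvd_mul_iff_left hp.pos).mp hbm, ?_⟩
      rintro rfl
      simp at hm
    · intro a _; rfl
  · rw [mul_zero]
    apply Finset.sum_eq_zero
    intro t ht
    simp only [Finset.mem_filter, Nat.mem_divisors] at ht
    exact absurd (dvd_trans ht.2 ht.1.1) hpm

/-- The Hecke relation for `σ₁`. -/
theorem m2e_sigma_hecke {l : ℕ} (hl : l.Prime) {n : ℕ} (hn : n ≠ 0) :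
    σ 1 (n * l) + (if l ∣ n then l * σ 1 (n / l) else 0) = (1 + l) * σ 1 n := by
  have h1 := m2e_sigma_eq_sig_add hl (mul_ne_zero hn hl.ne_zero)
  have h2 := m2e_sigma_eq_sig_add hl hn
  rw [if_pos (dvd_mul_left l n), Nat.mul_div_cancel _ hl.pos, m2e_sig_mul_self hl] at h1
  rw [h1, h2]
  split_ifs <;> ring

/-! ### Coefficient sequences -/

/-- coefficients of `E2` -/
noncomputable def m2e_cE2 (m : ℕ) : ℂ := if m = 0 then 1 else -24 * (σ 1 m : ℂ)

/-- coefficients of `d·E₂(dz)` -/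
noncomputable def m2e_cE2d (d m : ℕ) : ℂ := if d ∣ m then (d : ℂ) * m2e_cE2 (m / d) else 0

/-- The `q`-expansion coefficients of `d·E₂(dz) − E₂(z)`. -/
noncomputable def m2e_coeff (d m : ℕ) : ℂ := m2e_cE2d d m - m2e_cE2 m

theorem m2e_coeff_zero (d : ℕ) : m2e_coeff d 0 = (d : ℂ) - 1 := by
  simp [m2e_coeff, m2e_cE2d, m2e_cE2]

theorem m2e_coeff_of_ne_zero (d : ℕ) {m : ℕ} (hm : m ≠ 0) :
    m2e_coeff d m =
      24 * ((σ 1 m : ℂ) - (d : ℂ) * (if d ∣ m then (σ 1 (m / d) : ℂ) else 0)) := by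
  unfold m2e_coeff m2e_cE2d
  rw [show m2e_cE2 m = -24 * (σ 1 m : ℂ) by simp [m2e_cE2, hm]]
  split_ifs with hdm
  · have : m / d ≠ 0 := by
      obtain ⟨k, rfl⟩ := hdm
      rcases Nat.eq_zero_or_pos d with rfl | hd
      · simp at hm
      · rw [Nat.mul_div_cancel_left _ hd]
        rintro rfl
        simp at hm
    rw [show m2e_cE2 (m / d) = -24 * (σ 1 (m / d) : ℂ) by simp [m2e_cE2, this]]
    ring
  · ring

/-- For a prime `p` the coefficients are `24·σ^{(p)}(m)`. -/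
theorem m2e_coeff_prime {p : ℕ} (hp : p.Prime) {m : ℕ} (hm : m ≠ 0) :
    m2e_coeff p m = 24 * (m2e_sig p m : ℂ) := by
  rw [m2e_coeff_of_ne_zero p hm]
  have h := m2e_sigma_eq_sig_add hp hm
  have h' : (σ 1 m : ℂ) = (m2e_sig p m : ℂ) + (p : ℂ) * (if p ∣ m then (σ 1 (m / p) : ℂ) else 0) := by
    rw [h]
    split_ifs <;> push_cast <;> ring
  rw [h']
  ring

/-- `E₂` is a `T_ℓ`-eigenvector with eigenvalue `1 + ℓ` (on coefficients). -/
theorem m2e_cE2_heckeT {l : ℕ} (hl : l.Prime) (n : ℕ) :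
    coeffHeckeT 2 l m2e_cE2 n = (1 + (l : ℂ)) * m2e_cE2 n := by
  rcases eq_or_ne n 0 with rfl | hn
  · simp [coeffHeckeT, m2e_cE2]
  · have h := m2e_sigma_hecke hl hn
    have hnl : n * l ≠ 0 := mul_ne_zero hn hl.ne_zero
    unfold coeffHeckeT
    rw [show m2e_cE2 (n * l) = -24 * (σ 1 (n * l) : ℂ) by simp [m2e_cE2, hn, hl.ne_zero],
      show m2e_cE2 n = -24 * (σ 1 n : ℂ) by simp [m2e_cE2, hn]]
    have h' : (σ 1 (n * l) : ℂ) + (if l ∣ n then (l : ℂ) * (σ 1 (n / l) : ℂ) else 0)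
        = (1 + (l : ℂ)) * (σ 1 n : ℂ) := by
      have := congrArg (Nat.cast : ℕ → ℂ) h
      split_ifs at this ⊢ <;> push_cast at this <;> linear_combination this
    split_ifs with hln
    · have : n / l ≠ 0 := by
        obtain ⟨k, rfl⟩ := hln
        rw [Nat.mul_div_cancel_left _ hl.pos]
        rintro rfl
        simp at hn
      rw [show m2e_cE2 (n / l) = -24 * (σ 1 (n / l) : ℂ) by simp [m2e_cE2, this]]
      rw [if_pos hln] at h'
      have e : ((l : ℂ)) ^ ((2 : ℤ) - 1) = (l : ℂ) := by norm_num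
      rw [e]
      linear_combination (-24 : ℂ) * h'
    · rw [if_neg hln] at h'
      linear_combination (-24 : ℂ) * h'

/-- `d·E₂(dz)` is a `T_ℓ`-eigenvector with eigenvalue `1 + ℓ` for `ℓ ∤ d` (on coefficients). -/
theorem m2e_cE2d_heckeT {l : ℕ} (hl : l.Prime) {d : ℕ} (hd : ¬ l ∣ d) (n : ℕ) :
    coeffHeckeT 2 l (m2e_cE2d d) n = (1 + (l : ℂ)) * m2e_cE2d d n := by
  have hcop : Nat.Coprime d l := ((Nat.Prime.coprime_iff_not_dvd hl).mpr hd).symm
  have hd0 : d ≠ 0 := fun h => hd (h ▸ dvd_zero l)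
  by_cases hdn : d ∣ n
  · obtain ⟨n', rfl⟩ := hdn
    have h := m2e_cE2_heckeT hl n'
    unfold coeffHeckeT at h ⊢
    have e1 : m2e_cE2d d (d * n' * l) = (d : ℂ) * m2e_cE2 (n' * l) := by
      unfold m2e_cE2d
      rw [if_pos ⟨n' * l, by ring⟩, mul_assoc, Nat.mul_div_cancel_left _ (Nat.pos_of_ne_zero hd0)]
    have e2 : m2e_cE2d d (d * n') = (d : ℂ) * m2e_cE2 n' := by
      unfold m2e_cE2d
      rw [if_pos ⟨n', rfl⟩, Nat.mul_div_cancel_left _ (Nat.pos_of_ne_zero hd0)]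
    have e3 : l ∣ d * n' ↔ l ∣ n' :=
      ⟨fun h => (hcop.symm).dvd_of_dvd_mul_left h, fun h => dvd_mul_of_dvd_right h d⟩
    rw [e1, e2]
    by_cases hln : l ∣ n'
    · rw [if_pos (e3.mpr hln)]
      rw [if_pos hln] at h
      obtain ⟨k, rfl⟩ := hln
      have e4 : d * (l * k) / l = d * k := by
        rw [show d * (l * k) = l * (d * k) by ring, Nat.mul_div_cancel_left _ hl.pos]
      have e5 : m2e_cE2d d (d * k) = (d : ℂ) * m2e_cE2 k := by
        unfold m2e_cE2d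
        rw [if_pos ⟨k, rfl⟩, Nat.mul_div_cancel_left _ (Nat.pos_of_ne_zero hd0)]
      rw [e4, e5]
      rw [Nat.mul_div_cancel_left _ hl.pos] at h
      linear_combination (d : ℂ) * h
    · rw [if_neg (fun h' => hln (e3.mp h'))]
      rw [if_neg hln] at h
      linear_combination (d : ℂ) * h
  · unfold coeffHeckeT
    have e1 : m2e_cE2d d (n * l) = 0 := by
      unfold m2e_cE2d
      rw [if_neg (fun h => hdn (hcop.dvd_of_dvd_mul_right h))]
    have e2 : m2e_cE2d d n = 0 := by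
      unfold m2e_cE2d
      rw [if_neg hdn]
    rw [e1, e2]
    split_ifs with hln
    · have e3 : m2e_cE2d d (n / l) = 0 := by
        unfold m2e_cE2d
        rw [if_neg (fun h => hdn (dvd_trans h (Nat.div_dvd_of_dvd hln)))]
      rw [e3]; ring
    · ring

/-- `d·E₂(dz) − E₂(z)` is a `T_ℓ`-eigenvector with eigenvalue `1 + ℓ` for `ℓ ∤ d`
(on coefficients). -/
theorem m2e_coeff_heckeT {l : ℕ} (hl : l.Prime) {d : ℕ} (hd : ¬ l ∣ d) (n : ℕ) :
    coeffHeckeT 2 l (m2e_coeff d) n = (1 + (l : ℂ)) * m2e_coeff d n := by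
  have h1 := m2e_cE2d_heckeT hl hd n
  have h2 := m2e_cE2_heckeT hl n
  unfold coeffHeckeT at h1 h2 ⊢
  unfold m2e_coeff
  split_ifs at h1 h2 ⊢ with hln
  · linear_combination h1 - h2
  · linear_combination h1 - h2

/-- `p·E₂(pz) − E₂(z)` is fixed by `U_p` (on coefficients). -/
theorem m2e_coeff_heckeU {p : ℕ} (hp : p.Prime) (n : ℕ) :
    coeffHeckeU p (m2e_coeff p) n = m2e_coeff p n := by
  have h := m2e_cE2_heckeT hp n
  unfold coeffHeckeT at h
  unfold coeffHeckeU m2e_coeff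
  have e1 : m2e_cE2d p (n * p) = (p : ℂ) * m2e_cE2 n := by
    unfold m2e_cE2d
    rw [if_pos (dvd_mul_left p n), Nat.mul_div_cancel _ hp.pos]
  have e : ((p : ℂ)) ^ ((2 : ℤ) - 1) = (p : ℂ) := by norm_num
  rw [e1]
  unfold m2e_cE2d
  rw [e] at h
  split_ifs at h ⊢ with hpn
  · linear_combination -h
  · linear_combination -h

/-! ### The `q`-expansion -/

theorem m2e_hasSum_E2 (z : ℍ) :
    HasSum (fun m : ℕ ↦ m2e_cE2 m • Function.Periodic.qParam 1 z ^ m) (E2 z) := by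
  have := hasSum_qExpansion_E2 (z := z)
  simpa only [m2e_cE2, Function.Periodic.qParam, ofReal_one, div_one] using this

theorem m2e_qParam_diag {d : ℕ} (hd : d ≠ 0) (τ : ℍ) :
    Function.Periodic.qParam 1 (heckeDiagMatrix d • τ : ℍ) =
      Function.Periodic.qParam 1 τ ^ d := by
  rw [coe_heckeDiagMatrix_smul hd]
  simp only [Function.Periodic.qParam, ofReal_one, div_one]
  rw [← Complex.exp_nat_mul]
  ring_nf

theorem m2e_hasSum_E2d {d : ℕ} (hd : d ≠ 0) (τ : ℍ) :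
    HasSum (fun m : ℕ ↦ m2e_cE2d d m • Function.Periodic.qParam 1 τ ^ m)
      ((d : ℂ) * E2 (heckeDiagMatrix d • τ)) := by
  have h1 := (m2e_hasSum_E2 (heckeDiagMatrix d • τ)).mul_left (d : ℂ)
  have hinj : Function.Injective (fun m : ℕ => d * m) := fun a b h => by
    simpa [hd] using h
  rw [← hinj.hasSum_iff]
  · have hfun : ((fun m : ℕ ↦ m2e_cE2d d m • Function.Periodic.qParam 1 τ ^ m) ∘
          fun m => d * m) =
        fun i => (d : ℂ) *
          m2e_cE2 i • Function.Periodic.qParam 1 (heckeDiagMatrix d • τ : ℍ) ^ i := by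
      funext m
      have hdiv : d * m / d = m := Nat.mul_div_cancel_left _ (Nat.pos_of_ne_zero hd)
      simp only [Function.comp_apply, m2e_cE2d, dvd_mul_right, if_true, hdiv,
        m2e_qParam_diag hd, smul_eq_mul, ← pow_mul]
      ring
    rw [hfun]
    exact h1
  · intro m hm
    have : ¬ d ∣ m := fun ⟨k, hk⟩ => hm ⟨k, hk.symm⟩
    simp [m2e_cE2d, this]

theorem m2e_hasSum_fun {d : ℕ} (hd : d ≠ 0) (τ : ℍ) :
    HasSum (fun m : ℕ ↦ m2e_coeff d m • Function.Periodic.qParam 1 τ ^ m) (m2e_fun d τ) := by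
  rw [m2e_fun_apply hd]
  have := (m2e_hasSum_E2d hd τ).sub (m2e_hasSum_E2 τ)
  simpa only [m2e_coeff, sub_smul] using this

/-- **The `q`-expansion of `d·E₂(dz) − E₂(z)`.** -/
theorem m2e_qCoeff_eis (N d : ℕ) [NeZero N] (hd : d ∣ N) (m : ℕ) :
    ModularFormClass.qCoeff (m2e_eis N d hd) m = m2e_coeff d m := by
  have hd0 : d ≠ 0 := fun h => NeZero.ne N (by simpa [h] using hd)
  exact (ModularFormClass.qExpansion_coeff_unique (f := m2e_eis N d hd) one_pos
    (CongruenceSubgroup.one_mem_strictPeriods_Gamma0 N)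
    (fun τ => m2e_hasSum_fun hd0 τ) m).symm

theorem m2e_qCoeff_eis_zero (N d : ℕ) [NeZero N] (hd : d ∣ N) :
    ModularFormClass.qCoeff (m2e_eis N d hd) 0 = (d : ℂ) - 1 := by
  rw [m2e_qCoeff_eis, m2e_coeff_zero]

theorem m2e_qCoeff_eis_of_ne_zero (N d : ℕ) [NeZero N] (hd : d ∣ N) {m : ℕ} (hm : m ≠ 0) :
    ModularFormClass.qCoeff (m2e_eis N d hd) m =
      24 * ((σ 1 m : ℂ) - (d : ℂ) * (if d ∣ m then (σ 1 (m / d) : ℂ) else 0)) := by
  rw [m2e_qCoeff_eis, m2e_coeff_of_ne_zero d hm]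

theorem m2e_qCoeff_eis_prime (N : ℕ) [NeZero N] {p : ℕ} (hp : p.Prime) (hd : p ∣ N) {m : ℕ}
    (hm : m ≠ 0) :
    ModularFormClass.qCoeff (m2e_eis N p hd) m = 24 * (m2e_sig p m : ℂ) := by
  rw [m2e_qCoeff_eis, m2e_coeff_prime hp hm]

end Fermat.Agent.Lib.M2
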