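/-
S16 / M2 shared block (EIS), part 3 (helper2): `q`-coefficient calculus for
`ModularForm (Gamma0 N) k` (additivity, products, extensionality, Hecke operators), the
Eisenstein forms `m2e_eis` as Hecke eigenforms, and the normalised `e_p = (p E₂(pz) − E₂(z))/24`.
-/
import Mathlib
import Fermat.Agent.Lib.M2.EisQExp
import Fermat.Prelude.Def_ModularForm_HeckeOperatorForms
import Fermat.Prelude.Thm_ModularFormClass_qCoeff_heckeT
import Fermat.Prelude.Thm_ModularFormClass_qCoeff_heckeU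

set_option autoImplicit false

open UpperHalfPlane hiding I
open Real Complex Filter Topology
open scoped Manifold MatrixGroups ModularForm ArithmeticFunction.sigma
open EisensteinSeries ModularForm ModularGroup Matrix.SpecialLinearGroup ArithmeticFunction
open ModularFormClass

namespace Fermat.Agent.Lib.M2

local notation "Γ₀(" N ")" => CongruenceSubgroup.Gamma0 N

variable {N : ℕ} {k : ℤ}

theorem m2e_one_mem_strictPeriods (N : ℕ) :
    (1 : ℝ) ∈ (Subgroup.map (Matrix.SpecialLinearGroup.mapGL ℝ) Γ₀(N)).strictPeriods :=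
  CongruenceSubgroup.one_mem_strictPeriods_Gamma0 N

/-! ### `qCoeff` calculus on `ModularForm (Gamma0 N) k` -/

theorem m2e_qCoeff_add (f g : ModularForm Γ₀(N) k) (n : ℕ) :
    qCoeff ⇑(f + g) n = qCoeff ⇑f n + qCoeff ⇑g n := by
  simp only [qCoeff, FunLike.coe_add]
  rw [ModularForm.qExpansion_add one_pos (m2e_one_mem_strictPeriods N) f g, map_add]

theorem m2e_qCoeff_smul (c : ℂ) (f : ModularForm Γ₀(N) k) (n : ℕ) :
    qCoeff ⇑(c • f) n = c * qCoeff ⇑f n := by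
  have h1 : ⇑(c • f) = c • ⇑f := by
    ext z
    simp
  simp only [qCoeff, h1]
  rw [ModularForm.qExpansion_smul one_pos (m2e_one_mem_strictPeriods N) c f]
  simp

/-- The `n`-th `q`-expansion coefficient as a linear functional. -/
noncomputable def m2e_qCoeffLin (N : ℕ) (k : ℤ) (n : ℕ) : ModularForm Γ₀(N) k →ₗ[ℂ] ℂ where
  toFun f := qCoeff ⇑f n
  map_add' f g := m2e_qCoeff_add f g n
  map_smul' c f := by
    simp only [RingHom.id_apply, smul_eq_mul]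
    exact m2e_qCoeff_smul c f n

@[simp] theorem m2e_qCoeffLin_apply (f : ModularForm Γ₀(N) k) (n : ℕ) :
    m2e_qCoeffLin N k n f = qCoeff ⇑f n := rfl

theorem m2e_qCoeff_zero_form (n : ℕ) : qCoeff ⇑(0 : ModularForm Γ₀(N) k) n = 0 :=
  (m2e_qCoeffLin N k n).map_zero

theorem m2e_qCoeff_neg (f : ModularForm Γ₀(N) k) (n : ℕ) : qCoeff ⇑(-f) n = -qCoeff ⇑f n :=
  (m2e_qCoeffLin N k n).map_neg f

theorem m2e_qCoeff_sub (f g : ModularForm Γ₀(N) k) (n : ℕ) :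
    qCoeff ⇑(f - g) n = qCoeff ⇑f n - qCoeff ⇑g n :=
  (m2e_qCoeffLin N k n).map_sub f g

/-- Coefficients of a product are given by the Cauchy product. -/
theorem m2e_qCoeff_mul {a b : ℤ} (f : ModularForm Γ₀(N) a) (g : ModularForm Γ₀(N) b) (n : ℕ) :
    qCoeff ⇑(f.mul g) n =
      ∑ x ∈ Finset.HasAntidiagonal.antidiagonal n, qCoeff ⇑f x.1 * qCoeff ⇑g x.2 := by
  simp only [qCoeff]
  rw [ModularForm.qExpansion_mul one_pos (m2e_one_mem_strictPeriods N) f g,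
    PowerSeries.coeff_mul]

/-- A modular form all of whose `q`-coefficients vanish is zero. -/
theorem m2e_eq_zero_of_qCoeff (f : ModularForm Γ₀(N) k) (h : ∀ n : ℕ, qCoeff ⇑f n = 0) :
    f = 0 := by
  rw [← ModularForm.qExpansion_eq_zero_iff one_pos (m2e_one_mem_strictPeriods N)]
  ext n
  simpa [qCoeff] using h n

/-- The `q`-expansion principle on `M_k(Γ₀(N))`. -/
theorem m2e_ext_of_qCoeff {f g : ModularForm Γ₀(N) k}
    (h : ∀ n : ℕ, qCoeff ⇑f n = qCoeff ⇑g n) : f = g := by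
  rw [← sub_eq_zero]
  refine m2e_eq_zero_of_qCoeff _ fun n ↦ ?_
  rw [m2e_qCoeff_sub, h n, sub_self]

/-- Coefficients of `T_p f`. -/
theorem m2e_qCoeff_heckeTLin {p : ℕ} (hp : p.Prime) (hpN : ¬ p ∣ N) (f : ModularForm Γ₀(N) k)
    (n : ℕ) :
    qCoeff ⇑(ModularForm.heckeTLin k hp hpN f) n = coeffHeckeT k p (qCoeff ⇑f) n := by
  rw [ModularForm.coe_heckeTLin_apply, ModularFormClass.qCoeff_heckeT f
    (m2e_one_mem_strictPeriods N) hp.ne_zero n]

/-- Coefficients of `U_p f`. -/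
theorem m2e_qCoeff_heckeULin [NeZero N] {p : ℕ} (hp : p.Prime) (hpN : p ∣ N)
    (f : ModularForm Γ₀(N) k) (n : ℕ) :
    qCoeff ⇑(ModularForm.heckeULin k hpN f) n = qCoeff ⇑f (n * p) := by
  rw [ModularForm.coe_heckeULin_apply, ModularFormClass.qCoeff_heckeU f
    (m2e_one_mem_strictPeriods N) hp.ne_zero n]
  rfl

/-! ### The Eisenstein forms are Hecke eigenforms -/

theorem m2e_qCoeff_eis_fun (N d : ℕ) [NeZero N] (hd : d ∣ N) :
    qCoeff ⇑(m2e_eis N d hd) = m2e_coeff d :=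
  funext fun m => m2e_qCoeff_eis N d hd m

/-- `T_ℓ (d E₂(dz) − E₂(z)) = (1 + ℓ)(d E₂(dz) − E₂(z))` for `ℓ ∤ N`. -/
theorem m2e_heckeT_eis (N d : ℕ) [NeZero N] (hd : d ∣ N) {l : ℕ} (hl : l.Prime)
    (hlN : ¬ l ∣ N) :
    ModularForm.heckeTLin 2 hl hlN (m2e_eis N d hd) = (1 + (l : ℂ)) • m2e_eis N d hd := by
  apply m2e_ext_of_qCoeff
  intro n
  rw [m2e_qCoeff_heckeTLin, m2e_qCoeff_smul, m2e_qCoeff_eis_fun,
    m2e_coeff_heckeT hl (fun h => hlN (dvd_trans h hd))]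

/-- `U_p (p E₂(pz) − E₂(z)) = p E₂(pz) − E₂(z)` for a prime `p ∣ N`. -/
theorem m2e_heckeU_eis (N : ℕ) [NeZero N] {p : ℕ} (hp : p.Prime) (hpN : p ∣ N) :
    ModularForm.heckeULin 2 hpN (m2e_eis N p hpN) = m2e_eis N p hpN := by
  apply m2e_ext_of_qCoeff
  intro n
  rw [m2e_qCoeff_heckeULin hp, m2e_qCoeff_eis, m2e_qCoeff_eis]
  exact m2e_coeff_heckeU hp n

/-! ### The normalised Eisenstein series of prime level -/

/-- `e_p = (p E₂(pz) − E₂(z)) / 24 = (p-1)/24 + ∑ σ^{(p)}(k) q^k ∈ M₂(Γ₀(p))`. -/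
noncomputable def m2e_ep (p : ℕ) [NeZero p] : ModularForm Γ₀(p) 2 :=
  (24 : ℂ)⁻¹ • m2e_eis p p dvd_rfl

theorem m2e_qCoeff_ep_zero (p : ℕ) [NeZero p] :
    qCoeff ⇑(m2e_ep p) 0 = ((p : ℂ) - 1) / 24 := by
  rw [m2e_ep, m2e_qCoeff_smul, m2e_qCoeff_eis_zero]
  ring

theorem m2e_qCoeff_ep {p : ℕ} [NeZero p] (hp : p.Prime) {m : ℕ} (hm : m ≠ 0) :
    qCoeff ⇑(m2e_ep p) m = (m2e_sig p m : ℂ) := by
  rw [m2e_ep, m2e_qCoeff_smul, m2e_qCoeff_eis_prime p hp dvd_rfl hm]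
  ring

theorem m2e_qCoeff_ep_one {p : ℕ} [NeZero p] (hp : p.Prime) :
    qCoeff ⇑(m2e_ep p) 1 = 1 := by
  rw [m2e_qCoeff_ep hp one_ne_zero, m2e_sig_one hp]
  simp

theorem m2e_heckeT_ep {p : ℕ} [NeZero p] {l : ℕ} (hl : l.Prime) (hlp : ¬ l ∣ p) :
    ModularForm.heckeTLin 2 hl hlp (m2e_ep p) = (1 + (l : ℂ)) • m2e_ep p := by
  rw [m2e_ep, LinearMap.map_smul, m2e_heckeT_eis p p dvd_rfl hl hlp, smul_comm]

theorem m2e_heckeU_ep {p : ℕ} [NeZero p] (hp : p.Prime) :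
    ModularForm.heckeULin 2 (dvd_refl p) (m2e_ep p) = m2e_ep p := by
  rw [m2e_ep, LinearMap.map_smul, m2e_heckeU_eis p hp dvd_rfl]

end Fermat.Agent.Lib.M2
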