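/-
S16 / M2 shared block (EIS), part 4 (helper2): integer forms of the divisor-sum relations and
the bridge to the lead's `s16_sigma` (Lib/S16/Iface.lean).
-/
import Mathlib
import Fermat.Agent.Lib.M2.EisHecke
import Fermat.Agent.Lib.S16.Iface

set_option autoImplicit false

open scoped ArithmeticFunction.sigma
open ArithmeticFunction ModularFormClass ModularForm

namespace Fermat.Agent.Lib.M2

local notation "Γ₀(" N ")" => CongruenceSubgroup.Gamma0 N

/-- `m2e_sig` is the lead's `s16_sigma`. -/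
theorem m2e_sig_eq_s16_sigma (p k : ℕ) : m2e_sig p k = Fermat.Agent.Lib.S16.s16_sigma p k := rfl

/-- `σ^{(p)}(n) = σ(n) - p·σ(n/p)·[p ∣ n]` as an identity of integers. -/
theorem m2e_sig_int {p : ℕ} (hp : p.Prime) {m : ℕ} (hm : m ≠ 0) :
    (m2e_sig p m : ℤ) = (σ 1 m : ℤ) - (p : ℤ) * (if p ∣ m then (σ 1 (m / p) : ℤ) else 0) := by
  have h := m2e_sigma_eq_sig_add hp hm
  rw [h]
  split_ifs <;> push_cast <;> ring

/-- The `T_ℓ` relation for `σ^{(p)}`, `ℓ ≠ p` primes (in `ℕ`). -/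
theorem m2e_sig_hecke {p l : ℕ} (hp : p.Prime) (hl : l.Prime) (hlp : l ≠ p) (n : ℕ) :
    m2e_sig p (n * l) + (if l ∣ n then l * m2e_sig p (n / l) else 0) = (1 + l) * m2e_sig p n := by
  rcases eq_or_ne n 0 with rfl | hn
  · simp
  have hld : ¬ l ∣ p := fun h => hlp ((Nat.prime_dvd_prime_iff_eq hl hp).mp h)
  have h := m2e_coeff_heckeT hl hld n
  unfold coeffHeckeT at h
  rw [m2e_coeff_prime hp (mul_ne_zero hn hl.ne_zero), m2e_coeff_prime hp hn] at h
  have e : ((l : ℂ)) ^ ((2 : ℤ) - 1) = (l : ℂ) := by norm_num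
  rw [e] at h
  split_ifs at h ⊢ with hln
  · have hq : n / l ≠ 0 := by
      obtain ⟨k, rfl⟩ := hln
      rw [Nat.mul_div_cancel_left _ hl.pos]
      rintro rfl
      simp at hn
    rw [m2e_coeff_prime hp hq] at h
    have h' : ((m2e_sig p (n * l) + l * m2e_sig p (n / l) : ℕ) : ℂ) =
        (((1 + l) * m2e_sig p n : ℕ) : ℂ) := by
      push_cast
      linear_combination (1 / 24 : ℂ) * h
    exact_mod_cast h'
  · have h' : ((m2e_sig p (n * l) + 0 : ℕ) : ℂ) = (((1 + l) * m2e_sig p n : ℕ) : ℂ) := by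
      push_cast
      linear_combination (1 / 24 : ℂ) * h
    exact_mod_cast h'

/-- Special case `ℓ = 2`: `σ'(2n) = 3σ'(n) - 2σ'(n/2)·[2 ∣ n]` (as integers), `p` odd. -/
theorem m2e_sig_two {p : ℕ} (hp : p.Prime) (hp2 : p ≠ 2) (n : ℕ) :
    (m2e_sig p (2 * n) : ℤ) =
      3 * (m2e_sig p n : ℤ) - (if 2 ∣ n then 2 * (m2e_sig p (n / 2) : ℤ) else 0) := by
  have h := m2e_sig_hecke hp Nat.prime_two (Ne.symm hp2) n
  rw [mul_comm 2 n]
  split_ifs at h ⊢ with h2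
  · have : ((m2e_sig p (n * 2) + 2 * m2e_sig p (n / 2) : ℕ) : ℤ) =
        (((1 + 2) * m2e_sig p n : ℕ) : ℤ) := by rw [h]
    push_cast at this
    linarith
  · have : ((m2e_sig p (n * 2) + 0 : ℕ) : ℤ) = (((1 + 2) * m2e_sig p n : ℕ) : ℤ) := by rw [h]
    push_cast at this
    linarith

/-- `q`-coefficients of `e_p` in terms of `s16_sigma`. -/
theorem m2e_qCoeff_ep_s16 {p : ℕ} [NeZero p] (hp : p.Prime) {m : ℕ} (hm : 1 ≤ m) :
    qCoeff ⇑(m2e_ep p) m = (Fermat.Agent.Lib.S16.s16_sigma p m : ℂ) :=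
  m2e_qCoeff_ep hp (by omega)

end Fermat.Agent.Lib.M2
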