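/-
S16 / M2 (helper2): the Eisenstein interface `s16_IfaceEis p` from `m2e_ep`.
-/
import Mathlib
import Fermat.Agent.Lib.M2.EisIface
import Fermat.Agent.Lib.S16.Iface2

set_option autoImplicit false

open ModularFormClass

namespace Fermat.Agent.Lib.M2

/-- `s16_IfaceEis p`: the Eisenstein series `e_p ∈ M₂(Γ₀(p))` with
`a₀ = (p-1)/24`, `a_k = σ'(k)`. -/
theorem m2e_ifaceEis (p : ℕ) [Fact p.Prime] : Fermat.Agent.Lib.S16.s16_IfaceEis p :=
  ⟨m2e_ep p, m2e_qCoeff_ep_zero p, fun _ hk => m2e_qCoeff_ep_s16 (Fact.out) hk⟩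

end Fermat.Agent.Lib.M2
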