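/-
S16 / M2, (HT) package, part 1 (helper1): integer coefficient sequences.
The weight-4 operator `T_2` on integer sequences, the substitution `q ↦ q^(2^i)`, the recursive
family `w_i` and its congruence `w_i ≡ 3·8^i·g₀·B^i e`, and the resulting independence statement.
No modular forms in this file.
-/
import Mathlib

set_option autoImplicit false

namespace Fermat.Agent.Lib.M2.HT

theorem m2h_modEq_of_eq {N a b : ℤ} (h : a = b) : a ≡ b [ZMOD N] := h ▸ Int.ModEq.refl a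

/-- Weight-4 `T_2` on integer coefficient sequences. -/
def m2h_T (a : ℕ → ℤ) (n : ℕ) : ℤ := a (n * 2) + if 2 ∣ n then 8 * a (n / 2) else 0

/-- `q ↦ q^(2^i)` on coefficient sequences. -/
def m2h_B (i : ℕ) (a : ℕ → ℤ) (n : ℕ) : ℤ := if 2 ^ i ∣ n then a (n / 2 ^ i) else 0

theorem m2h_B_zero (a : ℕ → ℤ) (n : ℕ) : m2h_B 0 a n = a n := by simp [m2h_B]

theorem m2h_T_B_succ (i : ℕ) (a : ℕ → ℤ) (n : ℕ) :
    m2h_T (m2h_B (i + 1) a) n = m2h_B i a n + 8 * m2h_B (i + 2) a n := by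
  unfold m2h_T m2h_B
  have h1 : (2 ^ (i + 1) ∣ n * 2) ↔ 2 ^ i ∣ n := by
    rw [pow_succ]; exact Nat.mul_dvd_mul_iff_right (by norm_num)
  have h2 : n * 2 / 2 ^ (i + 1) = n / 2 ^ i := by
    rw [pow_succ]; exact Nat.mul_div_mul_right _ _ (by norm_num)
  have h3 : (2 ∣ n ∧ 2 ^ (i + 1) ∣ n / 2) ↔ 2 ^ (i + 2) ∣ n := by
    constructor
    · rintro ⟨⟨c, rfl⟩, h⟩
      rw [Nat.mul_div_cancel_left _ (by norm_num : 0 < 2)] at h
      rw [pow_succ, mul_comm]; exact Nat.mul_dvd_mul_left 2 h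
    · intro h
      have h2n : 2 ∣ n := dvd_trans (dvd_pow_self 2 (by omega)) h
      refine ⟨h2n, ?_⟩
      obtain ⟨c, rfl⟩ := h2n
      rw [Nat.mul_div_cancel_left _ (by norm_num : 0 < 2)]
      rw [pow_succ, mul_comm] at h
      exact (Nat.mul_dvd_mul_iff_left (by norm_num)).mp h
  have h4 : n / 2 / 2 ^ (i + 1) = n / 2 ^ (i + 2) := by
    rw [Nat.div_div_eq_div_mul, pow_succ 2 (i + 1), mul_comm]
  simp only [h1, h2]
  by_cases hd : 2 ^ (i + 2) ∣ n
  · obtain ⟨h2n, h5⟩ := h3.mpr hd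
    simp only [h2n, if_true, h5, h4, hd]
  · by_cases h2n : 2 ∣ n
    · have h5 : ¬ 2 ^ (i + 1) ∣ n / 2 := fun h => hd (h3.mp ⟨h2n, h⟩)
      simp [h2n, h5, hd]
    · simp [h2n, hd]

/-- `T_2` in weight 4 applied to a weight-2 `T_2`-eigen sequence with eigenvalue `3`. -/
theorem m2h_T_eigen (e : ℕ → ℤ)
    (heig : ∀ n, e (n * 2) = 3 * e n - (if 2 ∣ n then 2 * e (n / 2) else 0)) (n : ℕ) :
    m2h_T e n = 3 * e n + 6 * m2h_B 1 e n := by
  unfold m2h_T m2h_B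
  rw [heig n, pow_one]
  split_ifs <;> ring

theorem m2h_T_modEq {N : ℤ} {a b : ℕ → ℤ} (h : ∀ n, a n ≡ b n [ZMOD N]) (n : ℕ) :
    m2h_T a n ≡ m2h_T b n [ZMOD N] := by
  unfold m2h_T
  split_ifs
  · exact (h _).add ((h _).mul_left 8)
  · exact (h _).add (Int.ModEq.refl 0)

theorem m2h_T_smul (c : ℤ) (a : ℕ → ℤ) (n : ℕ) :
    m2h_T (fun m => c * a m) n = c * m2h_T a n := by
  unfold m2h_T
  split_ifs <;> ring

/-- The recursive family of coefficient sequences. -/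
def m2h_w (w0 : ℕ → ℤ) : ℕ → ℕ → ℤ
  | 0 => fun n => 3 * w0 n
  | 1 => fun n => 4 * m2h_T w0 n - 12 * w0 n
  | (i + 2) => fun n => m2h_T (m2h_w w0 (i + 1)) n - 8 * m2h_w w0 i n

theorem m2h_w_zero (w0 : ℕ → ℤ) (n : ℕ) : m2h_w w0 0 n = 3 * w0 n := rfl

theorem m2h_w_one (w0 : ℕ → ℤ) (n : ℕ) : m2h_w w0 1 n = 4 * m2h_T w0 n - 12 * w0 n := rfl

theorem m2h_w_succ_succ (w0 : ℕ → ℤ) (i n : ℕ) :
    m2h_w w0 (i + 2) n = m2h_T (m2h_w w0 (i + 1)) n - 8 * m2h_w w0 i n := rfl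

/-- The key congruence: `w_i ≡ 3·8^i·g₀·B^i e`. -/
theorem m2h_w_modEq (N g0 : ℤ) (e w0 : ℕ → ℤ)
    (heig : ∀ n, e (n * 2) = 3 * e n - (if 2 ∣ n then 2 * e (n / 2) else 0))
    (hw0 : ∀ n, w0 n ≡ g0 * e n [ZMOD N]) :
    ∀ i n, m2h_w w0 i n ≡ 3 * 8 ^ i * g0 * m2h_B i e n [ZMOD N] := by
  intro i
  induction i using Nat.twoStepInduction with
  | zero =>
    intro n
    rw [m2h_w_zero, m2h_B_zero, pow_zero, mul_one, mul_assoc]
    exact (hw0 n).mul_left 3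
  | one =>
    intro n
    rw [m2h_w_one]
    have h1 : m2h_T w0 n ≡ m2h_T (fun m => g0 * e m) n [ZMOD N] := m2h_T_modEq hw0 n
    rw [m2h_T_smul, m2h_T_eigen e heig] at h1
    have h2 := (h1.mul_left 4).sub ((hw0 n).mul_left 12)
    refine h2.trans (m2h_modEq_of_eq ?_)
    ring
  | more i ih0 ih1 =>
    intro n
    rw [m2h_w_succ_succ]
    have h1 : m2h_T (m2h_w w0 (i + 1)) n ≡
        m2h_T (fun m => (3 * 8 ^ (i + 1) * g0) * m2h_B (i + 1) e m) n [ZMOD N] :=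
      m2h_T_modEq ih1 n
    rw [m2h_T_smul, m2h_T_B_succ] at h1
    have h2 := h1.sub ((ih0 n).mul_left 8)
    refine h2.trans (m2h_modEq_of_eq ?_)
    ring

/-- The product of `e` with a sequence congruent to a constant. -/
theorem m2h_prod_modEq (N : ℤ) (e g : ℕ → ℤ) (hg : ∀ n, 1 ≤ n → N ∣ g n) (n : ℕ) :
    (∑ x ∈ Finset.HasAntidiagonal.antidiagonal n, e x.1 * g x.2) ≡ g 0 * e n [ZMOD N] := by
  rw [Finset.Nat.sum_antidiagonal_eq_sum_range_succ_mk, Finset.sum_range_succ]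
  simp only [Nat.sub_self]
  have h : N ∣ ∑ k ∈ Finset.range n, e k * g (n - k) := by
    refine Finset.dvd_sum fun k hk => ?_
    have : 1 ≤ n - k := by
      have := Finset.mem_range.mp hk
      omega
    exact Dvd.dvd.mul_left (hg _ this) _
  have h0 : (∑ k ∈ Finset.range n, e k * g (n - k)) ≡ 0 [ZMOD N] :=
    (Int.modEq_zero_iff_dvd).mpr h
  have := h0.add (Int.ModEq.refl (e n * g 0))
  refine this.trans (m2h_modEq_of_eq ?_)
  ring

theorem m2h_B_pow_self (i : ℕ) (e : ℕ → ℤ) : m2h_B i e (2 ^ i) = e 1 := by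
  unfold m2h_B
  rw [if_pos (dvd_refl _), Nat.div_self (pow_pos (by norm_num) i)]

theorem m2h_B_pow_of_lt {i k : ℕ} (h : k < i) (e : ℕ → ℤ) : m2h_B i e (2 ^ k) = 0 := by
  unfold m2h_B
  rw [if_neg]
  intro hd
  have := (Nat.pow_dvd_pow_iff_le_right (by norm_num : 1 < 2)).mp hd
  omega

/-- Independence: no `r`-primitive integer relation between sequences congruent to
`3·8^i·r^j·u·B^i e` modulo `r^(j+1)`. -/
theorem m2h_indep (r : ℕ) (hr : r.Prime) (hr5 : 5 ≤ r) (e : ℕ → ℤ) (he1 : ¬ (r : ℤ) ∣ e 1)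
    (j : ℕ) (u : ℤ) (hu : ¬ (r : ℤ) ∣ u) (w : ℕ → ℕ → ℤ)
    (hw : ∀ i n, w i n ≡ 3 * 8 ^ i * ((r : ℤ) ^ j * u) * m2h_B i e n [ZMOD (r : ℤ) ^ (j + 1)])
    (m : ℕ) (μ : ℕ → ℤ) (hμ : ∃ i, i < m ∧ ¬ (r : ℤ) ∣ μ i)
    (hrel : ∀ n, ∑ i ∈ Finset.range m, μ i * w i n = 0) : False := by
  classical
  obtain ⟨hi0m, hi0r⟩ := Nat.find_spec hμ
  have hmin : ∀ i, i < Nat.find hμ → (r : ℤ) ∣ μ i := by
    intro i hi
    by_contra hnd
    exact Nat.find_min hμ hi ⟨lt_trans hi hi0m, hnd⟩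
  generalize Nat.find hμ = i0 at hi0m hi0r hmin
  have hprime : Prime (r : ℤ) := Nat.prime_iff_prime_int.mp hr
  have h1 : (∑ i ∈ Finset.range m, μ i * w i (2 ^ i0)) ≡
      ∑ i ∈ Finset.range m, μ i * (3 * 8 ^ i * ((r : ℤ) ^ j * u) * m2h_B i e (2 ^ i0))
      [ZMOD (r : ℤ) ^ (j + 1)] :=
    Int.ModEq.sum fun i _ => (hw i _).mul_left _
  rw [hrel] at h1
  have h2 : (r : ℤ) ^ (j + 1) ∣
      (r : ℤ) ^ j * ∑ i ∈ Finset.range m, μ i * (3 * 8 ^ i * u * m2h_B i e (2 ^ i0)) := by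
    have := Int.modEq_zero_iff_dvd.mp h1.symm
    convert this using 1
    rw [Finset.mul_sum]
    exact Finset.sum_congr rfl fun i _ => by ring
  have h3 : (r : ℤ) ∣ ∑ i ∈ Finset.range m, μ i * (3 * 8 ^ i * u * m2h_B i e (2 ^ i0)) := by
    rw [pow_succ] at h2
    exact (mul_dvd_mul_iff_left (pow_ne_zero _ hprime.ne_zero)).mp h2
  rw [← Finset.add_sum_erase _ _ (Finset.mem_range.mpr hi0m)] at h3
  have h4 : (r : ℤ) ∣
      ∑ i ∈ (Finset.range m).erase i0, μ i * (3 * 8 ^ i * u * m2h_B i e (2 ^ i0)) := by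
    refine Finset.dvd_sum fun i hi => ?_
    rcases lt_or_gt_of_ne (Finset.ne_of_mem_erase hi) with hlt | hgt
    · exact Dvd.dvd.mul_right (hmin i hlt) _
    · rw [m2h_B_pow_of_lt hgt]
      simp
  have h5 := (Int.dvd_add_left h4).mp h3
  rw [m2h_B_pow_self] at h5
  rcases hprime.dvd_or_dvd h5 with h | h
  · exact hi0r h
  · rcases hprime.dvd_or_dvd h with h | h
    · rcases hprime.dvd_or_dvd h with h | h
      · rcases hprime.dvd_or_dvd h with h | h
        · have := Int.le_of_dvd (by norm_num) h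
          omega
        · have h8 := hprime.dvd_of_dvd_pow h
          rw [show (8 : ℤ) = 2 ^ 3 by norm_num] at h8
          have := Int.le_of_dvd (by norm_num) (hprime.dvd_of_dvd_pow h8)
          omega
      · exact hu h
    · exact he1 h

/-- A primitive integer relation among more than `B + 1` truncated sequences. -/
theorem m2h_exists_rel (r : ℕ) (hr : r.Prime) (B m : ℕ) (hm : B + 1 < m) (w : ℕ → ℕ → ℤ) :
    ∃ μ : ℕ → ℤ, (∃ i, i < m ∧ ¬ (r : ℤ) ∣ μ i) ∧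
      ∀ n, n ≤ B → ∑ i ∈ Finset.range m, μ i * w i n = 0 := by
  classical
  let A : Matrix (Fin (B + 1)) (Fin m) ℤ := fun n i => w i n
  obtain ⟨t, ht0, htA, -⟩ := Int.Matrix.exists_ne_zero_int_vec_norm_le A
    (by simpa using hm) (by simp)
  have hne : (Finset.univ : Finset (Fin m)).Nonempty :=
    ⟨⟨0, by omega⟩, Finset.mem_univ _⟩
  obtain ⟨g, hg, hg1⟩ := Finset.extract_gcd t hne
  have hd : (Finset.univ : Finset (Fin m)).gcd t ≠ 0 := by
    intro h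
    rw [Finset.gcd_eq_zero_iff] at h
    exact ht0 (funext fun i => h i (Finset.mem_univ _))
  have hprime : Prime (r : ℤ) := Nat.prime_iff_prime_int.mp hr
  refine ⟨fun i => if h : i < m then g ⟨i, h⟩ else 0, ?_, ?_⟩
  · by_contra hall
    simp only [not_exists, not_and, not_not] at hall
    have : (r : ℤ) ∣ (Finset.univ : Finset (Fin m)).gcd g := by
      refine Finset.dvd_gcd fun i _ => ?_
      have := hall i i.2
      simpa using this
    rw [hg1] at this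
    exact hprime.not_dvd_one this
  · intro n hn
    have h1 := congrFun htA ⟨n, by omega⟩
    simp only [Matrix.mulVec, dotProduct, Pi.zero_apply] at h1
    rw [Finset.sum_range]
    have h2 : ∑ i : Fin m, A ⟨n, by omega⟩ i * t i =
        (Finset.univ : Finset (Fin m)).gcd t * ∑ i : Fin m, g i * w i n := by
      rw [Finset.mul_sum]
      refine Finset.sum_congr rfl fun i _ => ?_
      rw [hg i (Finset.mem_univ _)]
      simp only [A]
      ring
    rw [h2] at h1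
    have h3 := (mul_eq_zero.mp h1).resolve_left hd
    simpa using h3

end Fermat.Agent.Lib.M2.HT
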