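/-
S16 / M2, (HT) package, part 2 (helper1): the modular forms side.
`q`-coefficient API for `ModularForm (Gamma0 N) k`, forms with integer `q`-coefficients, the
recursive family `W_i` in weight `2 + 2`, and the main theorem `m2h_main`: there is no
`G ∈ M_2(Gamma0 N)` (`N` odd) with integer coefficients which is congruent to a constant of exact
`r`-adic valuation `j` modulo `r^(j+1)`, for a prime `r ≥ 5`, as soon as `M_2(Gamma0 N)` contains
a form `E` with integer coefficients, `T_2`-eigenvalue `3` on coefficients, and `r ∤ a_1(E)`.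
-/
import Mathlib
import Fermat.Prelude.Def_FLTPrelim_Modularity
import Fermat.Prelude.Def_ModularForm_HeckeOperatorForms
import Fermat.Prelude.Thm_ModularForm_sturm_bound_Gamma0
import Fermat.Prelude.Thm_CongruenceSubgroup_one_mem_strictPeriods_Gamma0
import Fermat.Prelude.Thm_ModularFormClass_qCoeff_heckeT
import Fermat.Agent.Lib.M2.HTSeq

set_option autoImplicit false

open ModularFormClass UpperHalfPlane ModularForm
open scoped MatrixGroups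

namespace Fermat.Agent.Lib.M2.HT

variable {N : ℕ} {k : ℤ}

local notation "Γ₀(" N ")" => CongruenceSubgroup.Gamma0 N

theorem m2h_one_mem_strictPeriods (N : ℕ) :
    (1 : ℝ) ∈ (Subgroup.map (Matrix.SpecialLinearGroup.mapGL ℝ) Γ₀(N)).strictPeriods :=
  CongruenceSubgroup.one_mem_strictPeriods_Gamma0 N

theorem m2h_qCoeff_add (f g : ModularForm Γ₀(N) k) (n : ℕ) :
    qCoeff ⇑(f + g) n = qCoeff ⇑f n + qCoeff ⇑g n := by
  simp only [qCoeff, FunLike.coe_add]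
  rw [ModularForm.qExpansion_add one_pos (m2h_one_mem_strictPeriods N) f g, map_add]

theorem m2h_qCoeff_smul (c : ℂ) (f : ModularForm Γ₀(N) k) (n : ℕ) :
    qCoeff ⇑(c • f) n = c * qCoeff ⇑f n := by
  have h1 : ⇑(c • f) = c • ⇑f := by
    ext z
    simp
  simp only [qCoeff, h1]
  rw [ModularForm.qExpansion_smul one_pos (m2h_one_mem_strictPeriods N) c f]
  simp

/-- The `n`-th `q`-expansion coefficient as a linear functional on modular forms. -/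
noncomputable def m2h_qCoeffLin (N : ℕ) (k : ℤ) (n : ℕ) : ModularForm Γ₀(N) k →ₗ[ℂ] ℂ where
  toFun f := qCoeff ⇑f n
  map_add' f g := m2h_qCoeff_add f g n
  map_smul' c f := by
    simp only [RingHom.id_apply, smul_eq_mul]
    exact m2h_qCoeff_smul c f n

@[simp] theorem m2h_qCoeffLin_apply (f : ModularForm Γ₀(N) k) (n : ℕ) :
    m2h_qCoeffLin N k n f = qCoeff ⇑f n := rfl

theorem m2h_qCoeff_sub (f g : ModularForm Γ₀(N) k) (n : ℕ) :
    qCoeff ⇑(f - g) n = qCoeff ⇑f n - qCoeff ⇑g n :=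
  (m2h_qCoeffLin N k n).map_sub f g

theorem m2h_qCoeff_zero_form (n : ℕ) : qCoeff ⇑(0 : ModularForm Γ₀(N) k) n = 0 :=
  (m2h_qCoeffLin N k n).map_zero

theorem m2h_qCoeff_sum {ι : Type*} (s : Finset ι) (f : ι → ModularForm Γ₀(N) k) (n : ℕ) :
    qCoeff ⇑(∑ i ∈ s, f i) n = ∑ i ∈ s, qCoeff ⇑(f i) n := by
  have := map_sum (m2h_qCoeffLin N k n) f s
  simp only [m2h_qCoeffLin_apply] at this
  exact this

theorem m2h_qCoeff_heckeTLin {p : ℕ} (hp : p.Prime) (hpN : ¬ p ∣ N) (f : ModularForm Γ₀(N) k)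
    (n : ℕ) :
    qCoeff ⇑(ModularForm.heckeTLin k hp hpN f) n =
      qCoeff ⇑f (n * p) + if p ∣ n then (p : ℂ) ^ (k - 1) * qCoeff ⇑f (n / p) else 0 := by
  rw [ModularForm.coe_heckeTLin_apply, ModularFormClass.qCoeff_heckeT f
    (m2h_one_mem_strictPeriods N) hp.ne_zero n]
  rfl

theorem m2h_qCoeff_mul {a b : ℤ} (f : ModularForm Γ₀(N) a) (g : ModularForm Γ₀(N) b) (n : ℕ) :
    qCoeff ⇑(f.mul g) n =
      ∑ x ∈ Finset.HasAntidiagonal.antidiagonal n, qCoeff ⇑f x.1 * qCoeff ⇑g x.2 := by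
  simp only [qCoeff]
  rw [ModularForm.qExpansion_mul one_pos (m2h_one_mem_strictPeriods N) f g, PowerSeries.coeff_mul]

/-- The Sturm bound in terms of `qCoeff`. -/
theorem m2h_eq_zero_of_qCoeff [NeZero N] (f : ModularForm Γ₀(N) k)
    (h : ∀ n : ℕ, n ≤ (k * (Γ₀(N)).index).toNat / 12 → qCoeff ⇑f n = 0) : f = 0 :=
  ModularForm.sturm_bound_Gamma0 N f h

/-- `f` has integer `q`-coefficients given by the sequence `a`. -/
def m2h_IsInt (f : ModularForm Γ₀(N) k) (a : ℕ → ℤ) : Prop := ∀ n, qCoeff ⇑f n = (a n : ℂ)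

theorem m2h_IsInt.mul {a b : ℤ} {f : ModularForm Γ₀(N) a} {g : ModularForm Γ₀(N) b}
    {x y : ℕ → ℤ} (hf : m2h_IsInt f x) (hg : m2h_IsInt g y) :
    m2h_IsInt (f.mul g)
      (fun n => ∑ z ∈ Finset.HasAntidiagonal.antidiagonal n, x z.1 * y z.2) := by
  intro n
  rw [m2h_qCoeff_mul]
  push_cast
  exact Finset.sum_congr rfl fun z _ => by rw [hf, hg]

theorem m2h_IsInt.smul {f : ModularForm Γ₀(N) k} {x : ℕ → ℤ} (hf : m2h_IsInt f x) (c : ℤ) :
    m2h_IsInt ((c : ℂ) • f) (fun n => c * x n) := by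
  intro n
  rw [m2h_qCoeff_smul, hf]
  push_cast
  rfl

theorem m2h_IsInt.sub {f g : ModularForm Γ₀(N) k} {x y : ℕ → ℤ} (hf : m2h_IsInt f x)
    (hg : m2h_IsInt g y) : m2h_IsInt (f - g) (fun n => x n - y n) := by
  intro n
  rw [m2h_qCoeff_sub, hf, hg]
  push_cast
  rfl

theorem m2h_IsInt.heckeT2 (h2 : ¬ 2 ∣ N) {f : ModularForm Γ₀(N) (2 + 2)} {x : ℕ → ℤ}
    (hf : m2h_IsInt f x) :
    m2h_IsInt (ModularForm.heckeTLin (2 + 2) Nat.prime_two h2 f) (m2h_T x) := by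
  intro n
  rw [m2h_qCoeff_heckeTLin, hf]
  unfold m2h_T
  split_ifs with h
  · rw [hf]
    push_cast
    norm_num
  · push_cast
    ring

/-- The recursive family of weight `2 + 2` forms. -/
noncomputable def m2h_W (h2 : ¬ 2 ∣ N) (W0 : ModularForm Γ₀(N) (2 + 2)) :
    ℕ → ModularForm Γ₀(N) (2 + 2)
  | 0 => ((3 : ℤ) : ℂ) • W0
  | 1 => ((4 : ℤ) : ℂ) • ModularForm.heckeTLin (2 + 2) Nat.prime_two h2 W0 - ((12 : ℤ) : ℂ) • W0
  | (i + 2) => ModularForm.heckeTLin (2 + 2) Nat.prime_two h2 (m2h_W h2 W0 (i + 1)) -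
      ((8 : ℤ) : ℂ) • m2h_W h2 W0 i

theorem m2h_W_isInt (h2 : ¬ 2 ∣ N) {W0 : ModularForm Γ₀(N) (2 + 2)} {w0 : ℕ → ℤ}
    (hW0 : m2h_IsInt W0 w0) : ∀ i, m2h_IsInt (m2h_W h2 W0 i) (m2h_w w0 i) := by
  intro i
  induction i using Nat.twoStepInduction with
  | zero => exact hW0.smul 3
  | one => exact ((hW0.heckeT2 h2).smul 4).sub (hW0.smul 12)
  | more i ih0 ih1 => exact (ih1.heckeT2 h2).sub (ih0.smul 8)

/-- **Main theorem of the (HT) package.** -/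
theorem m2h_main (N r : ℕ) [NeZero N] (h2 : ¬ 2 ∣ N) (hr : r.Prime) (hr5 : 5 ≤ r)
    (E G : ModularForm Γ₀(N) 2) (e g : ℕ → ℤ)
    (hE : ∀ n, qCoeff ⇑E n = (e n : ℂ)) (hG : ∀ n, qCoeff ⇑G n = (g n : ℂ))
    (he1 : ¬ (r : ℤ) ∣ e 1)
    (heig : ∀ n, e (n * 2) = 3 * e n - (if 2 ∣ n then 2 * e (n / 2) else 0))
    (j : ℕ) (u : ℤ) (hu : ¬ (r : ℤ) ∣ u) (hg0 : g 0 = (r : ℤ) ^ j * u)
    (hgn : ∀ n, 1 ≤ n → (r : ℤ) ^ (j + 1) ∣ g n) : False := by
  set w0 : ℕ → ℤ := fun n => ∑ z ∈ Finset.HasAntidiagonal.antidiagonal n, e z.1 * g z.2 with hw0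
  have hW0 : m2h_IsInt (E.mul G) w0 := m2h_IsInt.mul (f := E) (g := G) hE hG
  have hcong0 : ∀ n, w0 n ≡ g 0 * e n [ZMOD (r : ℤ) ^ (j + 1)] :=
    fun n => m2h_prod_modEq _ e g hgn n
  have hcong : ∀ i n, m2h_w w0 i n ≡
      3 * 8 ^ i * ((r : ℤ) ^ j * u) * m2h_B i e n [ZMOD (r : ℤ) ^ (j + 1)] := by
    have := m2h_w_modEq ((r : ℤ) ^ (j + 1)) (g 0) e w0 heig hcong0
    rwa [hg0] at this
  have hWi := m2h_W_isInt h2 hW0
  set B0 : ℕ := (((2 : ℤ) + 2) * (Γ₀(N)).index).toNat / 12 with hB0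
  obtain ⟨μ, hμ, hrel⟩ := m2h_exists_rel r hr B0 (B0 + 2) (by omega) (m2h_w w0)
  set R : ModularForm Γ₀(N) (2 + 2) :=
    ∑ i ∈ Finset.range (B0 + 2), ((μ i : ℤ) : ℂ) • m2h_W h2 (E.mul G) i with hR
  have hRcoeff : ∀ n, qCoeff ⇑R n =
      ((∑ i ∈ Finset.range (B0 + 2), μ i * m2h_w w0 i n : ℤ) : ℂ) := by
    intro n
    rw [hR, m2h_qCoeff_sum, Int.cast_sum]
    refine Finset.sum_congr rfl fun i _ => ?_
    rw [m2h_qCoeff_smul, hWi i n, Int.cast_mul]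
  have hR0 : R = 0 := by
    refine m2h_eq_zero_of_qCoeff R fun n hn => ?_
    rw [hRcoeff n, hrel n hn, Int.cast_zero]
  have hrel' : ∀ n, ∑ i ∈ Finset.range (B0 + 2), μ i * m2h_w w0 i n = 0 := by
    intro n
    have := hRcoeff n
    rw [hR0, m2h_qCoeff_zero_form] at this
    exact_mod_cast this.symm
  exact m2h_indep r hr hr5 e he1 j u hu (m2h_w w0) hcong (B0 + 2) μ hμ hrel'

end Fermat.Agent.Lib.M2.HT
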