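/-
S16 / M2, (HT) package, part 3 (helper1): the elementary divisor-sum identity
`F(2n) = 3 F(n) - [2 ∣ n] 2 F(n/2)` for `F(n) = ∑_{d ∣ n} f(d)` with `f(2d) = 2 f(d)`.
-/
import Mathlib

set_option autoImplicit false

namespace Fermat.Agent.Lib.M2.HT

theorem m2h_divisors_two_mul (n : ℕ) (hn : n ≠ 0) :
    (2 * n).divisors = n.divisors ∪ n.divisors.image (2 * ·) := by
  ext d
  simp only [Nat.mem_divisors, Finset.mem_union, Finset.mem_image]
  constructor
  · rintro ⟨hd, -⟩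
    by_cases h2 : 2 ∣ d
    · obtain ⟨d', rfl⟩ := h2
      right
      exact ⟨d', ⟨(Nat.mul_dvd_mul_iff_left (by norm_num)).mp hd, hn⟩, rfl⟩
    · left
      have hc : Nat.Coprime d 2 :=
        Nat.coprime_comm.mp ((Nat.Prime.coprime_iff_not_dvd Nat.prime_two).mpr h2)
      exact ⟨hc.dvd_of_dvd_mul_left hd, hn⟩
  · rintro (⟨hd, -⟩ | ⟨d', ⟨hd', -⟩, rfl⟩)
    · exact ⟨Dvd.dvd.mul_left hd 2, by omega⟩
    · exact ⟨Nat.mul_dvd_mul_left 2 hd', by omega⟩

theorem m2h_divisors_inter (n : ℕ) (hn : n ≠ 0) :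
    n.divisors ∩ n.divisors.image (2 * ·) =
      if 2 ∣ n then (n / 2).divisors.image (2 * ·) else ∅ := by
  ext d
  simp only [Finset.mem_inter, Nat.mem_divisors, Finset.mem_image]
  split_ifs with h2
  · obtain ⟨m, rfl⟩ := h2
    have hm : m ≠ 0 := by
      rintro rfl
      exact hn rfl
    rw [Nat.mul_div_cancel_left _ (by norm_num : 0 < 2)]
    simp only [Finset.mem_image, Nat.mem_divisors]
    constructor
    · rintro ⟨⟨hd, -⟩, d', ⟨-, -⟩, rfl⟩
      exact ⟨d', ⟨(Nat.mul_dvd_mul_iff_left (by norm_num)).mp hd, hm⟩, rfl⟩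
    · rintro ⟨d', ⟨hd', -⟩, rfl⟩
      exact ⟨⟨Nat.mul_dvd_mul_left 2 hd', hn⟩, d', ⟨Dvd.dvd.mul_left hd' 2, hn⟩, rfl⟩
  · simp only [Finset.notMem_empty, iff_false, not_and, not_exists]
    rintro ⟨hd, -⟩ d' - rfl
    exact h2 (dvd_trans (dvd_mul_right 2 d') hd)

/-- The `T_2`-eigenvalue identity for divisor sums of a function with `f (2 d) = 2 f d`. -/
theorem m2h_sum_divisors_two_mul (f : ℕ → ℤ) (hf : ∀ d, f (2 * d) = 2 * f d) (n : ℕ)
    (hn : n ≠ 0) :
    ∑ d ∈ (n * 2).divisors, f d =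
      3 * ∑ d ∈ n.divisors, f d - (if 2 ∣ n then 2 * ∑ d ∈ (n / 2).divisors, f d else 0) := by
  classical
  have hinj : Function.Injective (fun d : ℕ => 2 * d) := fun a b h => by
    simpa using h
  have h1 := Finset.sum_union_inter (s₁ := n.divisors) (s₂ := n.divisors.image (2 * ·)) (f := f)
  rw [← m2h_divisors_two_mul n hn, m2h_divisors_inter n hn,
    Finset.sum_image (fun a _ b _ h => hinj h)] at h1
  simp only [hf, ← Finset.mul_sum] at h1
  rw [mul_comm n 2]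
  split_ifs with h2
  · rw [if_pos h2, Finset.sum_image (fun a _ b _ h => hinj h)] at h1
    simp only [hf, ← Finset.mul_sum] at h1
    linarith
  · rw [if_neg h2, Finset.sum_empty] at h1
    linarith

end Fermat.Agent.Lib.M2.HT
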