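/-
S16 / M2, (HT) package, part 4 (helper1): the bridge to the lead's interface.
`m2h_noG : p ≠ 2 → s16_IfaceEis p → ∀ r prime, 5 ≤ r → s16_NoG p r 1`.
-/
import Fermat.Agent.Lib.S16.Iface2
import Fermat.Agent.Lib.M2.HTForms
import Fermat.Agent.Lib.M2.HTSigma

set_option autoImplicit false

open ModularCurve CuspForm ModularFormClass CongruenceSubgroup

namespace Fermat.Agent.Lib.M2.HT

open Fermat.Agent.Lib.S16

variable (p : ℕ) [Fact p.Prime]

omit [Fact p.Prime] in
/-- `σ'` as a divisor sum of an integer valued function. -/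
theorem m2h_sigma_eq (k : ℕ) :
    ((s16_sigma p k : ℕ) : ℤ) = ∑ d ∈ k.divisors, (if p ∣ d then (0 : ℤ) else (d : ℤ)) := by
  unfold s16_sigma
  rw [Finset.sum_filter]
  push_cast
  refine Finset.sum_congr rfl fun d _ => ?_
  split_ifs <;> simp_all

/-- `σ'(2n) = 3σ'(n) - [2 ∣ n]·2σ'(n/2)` for odd `p`. -/
theorem m2h_sigma_two_mul (hp2 : p ≠ 2) (n : ℕ) (hn : n ≠ 0) :
    ((s16_sigma p (n * 2) : ℕ) : ℤ) = 3 * (s16_sigma p n : ℤ) -
      (if 2 ∣ n then 2 * ((s16_sigma p (n / 2) : ℕ) : ℤ) else 0) := by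
  have hp : p.Prime := Fact.out
  simp only [m2h_sigma_eq]
  refine m2h_sum_divisors_two_mul _ (fun d => ?_) n hn
  have hiff : p ∣ 2 * d ↔ p ∣ d := by
    constructor
    · intro h
      rcases hp.dvd_mul.mp h with h | h
      · exact absurd ((Nat.prime_dvd_prime_iff_eq hp Nat.prime_two).mp h) hp2
      · exact h
    · exact fun h => Dvd.dvd.mul_left h 2
  by_cases h : p ∣ d
  · rw [if_pos (hiff.mpr h), if_pos h, mul_zero]
  · rw [if_neg (fun h' => h (hiff.mp h')), if_neg h]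
    push_cast
    ring

/-- **(HT) deliverable**: for a prime `r ≥ 5` there is no `G ∈ M₂(Γ₀(p))` with integer
`q`-expansion, `r^j ∥ a₀(G)` and all higher coefficients divisible by `r^(j+1)`. -/
theorem m2h_noG (hp2 : p ≠ 2) (hEis : s16_IfaceEis p) (r : ℕ) (hr : r.Prime) (hr5 : 5 ≤ r) :
    s16_NoG p r 1 := by
  have hp : p.Prime := Fact.out
  have : NeZero p := ⟨hp.ne_zero⟩
  rintro ⟨G, g, j, hG, hj0, hj1, hgn⟩
  obtain ⟨E, hE0, hEk⟩ := hEis
  have h2 : ¬ 2 ∣ p := fun h =>
    hp2 ((Nat.prime_dvd_prime_iff_eq Nat.prime_two hp).mp h).symm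
  have hprime : Prime (r : ℤ) := Nat.prime_iff_prime_int.mp hr
  obtain ⟨u, hu⟩ := hj0
  have hur : ¬ (r : ℤ) ∣ u := by
    rintro ⟨v, rfl⟩
    apply hj1
    rw [hu, pow_succ]
    exact ⟨v, by ring⟩
  let e : ℕ → ℤ := fun n => if n = 0 then (p : ℤ) - 1 else 24 * ((s16_sigma p n : ℕ) : ℤ)
  have hE24 : ∀ n, qCoeff ⇑(((24 : ℤ) : ℂ) • E) n = (e n : ℂ) := by
    intro n
    rw [m2h_qCoeff_smul]
    by_cases hn : n = 0
    · subst hn
      simp only [e, if_true, hE0]
      push_cast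
      ring
    · simp only [e, if_neg hn, hEk n (Nat.one_le_iff_ne_zero.mpr hn)]
      push_cast
      ring
  have hs1 : s16_sigma p 1 = 1 := by
    unfold s16_sigma
    rw [Nat.divisors_one, Finset.filter_singleton, if_pos]
    · simp
    · intro h
      exact hp.one_lt.ne' (Nat.dvd_one.mp h)
  have he1 : ¬ (r : ℤ) ∣ e 1 := by
    simp only [e, if_neg one_ne_zero, hs1]
    intro h
    have h24 : (r : ℤ) ∣ 2 ^ 3 * 3 := by
      convert h using 1
      norm_num
    rcases hprime.dvd_or_dvd h24 with h | h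
    · have := Int.le_of_dvd (by norm_num) (hprime.dvd_of_dvd_pow h)
      omega
    · have := Int.le_of_dvd (by norm_num) h
      omega
  have heig : ∀ n, e (n * 2) = 3 * e n - (if 2 ∣ n then 2 * e (n / 2) else 0) := by
    intro n
    by_cases hn : n = 0
    · subst hn
      simp only [e]
      norm_num
      ring
    · have hn2 : n * 2 ≠ 0 := by omega
      simp only [e, if_neg hn, if_neg hn2]
      rw [m2h_sigma_two_mul p hp2 n hn]
      split_ifs with hd hd0
      · exfalso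
        obtain ⟨m, rfl⟩ := hd
        omega
      · ring
      · ring
  exact m2h_main p r h2 hr hr5 (((24 : ℤ) : ℂ) • E) G e g hE24 hG he1 heig j u hur hu
    (by simpa using hgn)

end Fermat.Agent.Lib.M2.HT
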