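/-
S16 / M2, (HT) package, final export (helper1): with helper2's `m2e_ifaceEis` the `r ≥ 5` lemma is
unconditional.
-/
import Fermat.Agent.Lib.M2.HTNoG
import Fermat.Agent.Lib.M2.EisIface2

set_option autoImplicit false

namespace Fermat.Agent.Lib.M2.HT

open Fermat.Agent.Lib.S16

/-- For an odd prime `p` and every prime `r ≥ 5`: `s16_NoG p r 1`. -/
theorem m2h_noG' (p : ℕ) [Fact p.Prime] (hp2 : p ≠ 2) (r : ℕ) (hr : r.Prime) (hr5 : 5 ≤ r) :
    s16_NoG p r 1 :=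
  m2h_noG p hp2 (m2e_ifaceEis p) r hr hr5

end Fermat.Agent.Lib.M2.HT
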