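import Fermat.Agent.Lib.M2.DualMain
import Fermat.Agent.Lib.M2.DualSmall
import Fermat.Agent.Lib.M2.HTFinal
import Fermat.Agent.Lib.M2.EisIface2
import Fermat.Agent.Lib.S16.FormsAssembly
import Fermat.Agent.Lib.S16.FLB

/-!
# S16: final glue (dry run of the assembly)
-/

set_option autoImplicit false
open ModularCurve CuspForm CongruenceSubgroup ModularCurve.Period
open Fermat.Agent.Lib.S16 Fermat.Agent.Lib.M2.HT

namespace Fermat.Agent.Lib.M2

/-- **Final glue for S16**: the statement in the exact frozen shape from the remaining inputs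
`N3`–`N6` (for `7 ≤ p`) and the lifting theorem (helper3's `s16c_lifting'` shape). Everything else
(Eisenstein series, `r ≥ 5`, forms assembly, lower bound from the lift, duality, small `p`) is
plugged in from the landed files. -/
theorem m2d_S16_of_inputs (p : ℕ) [Fact p.Prime]
    (hN3 : 7 ≤ p → p % 3 = 1 → s16_NoG p 3 1) (hN4 : 7 ≤ p → p % 3 = 2 → s16_NoG p 3 2)
    (hN5 : 7 ≤ p → p % 4 = 1 → s16_NoG p 2 2) (hN6 : 7 ≤ p → p % 4 = 3 → s16_NoG p 2 3)
    (hlift : ∀ (N : ℕ) [NeZero N] (m : ℕ) (_ : 0 < m) (_ : m.Coprime N)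
      (ψ : Additive (Gamma0 N) →+ ZMod m) (_ : IsParabolicHom (Gamma0 N) ψ)
      (_ : ∀ γ : Gamma0 N, IsOfFinOrder γ → ψ (Additive.ofMul γ) = 0),
      ∃ φ : Additive (Gamma0 N) →+ ℤ, IsParabolicHom (Gamma0 N) φ ∧
        ∀ γ : Gamma0 N, ((φ (Additive.ofMul γ) : ℤ) : ZMod m) = ψ (Additive.ofMul γ)) :
    Nat.card (↥(heckeLatticeAlgebra p ∅) ⧸
        Ideal.map ((latticeRestrictHom p ∅).toRingHom.comp (heckeEvalForms p 2))
          (eisensteinIdeal p)) =
      eisensteinNumerator p := by
  have hpp : p.Prime := Fact.out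
  rcases lt_or_ge p 7 with h | h
  · exact m2d_small p h
  · have hp2 : p ≠ 2 := by omega
    have hforms : s16_IfaceForms p :=
      s16_forms_of_noG p h (m2e_ifaceEis p) (fun r hr hr5 => m2h_noG' p hp2 r hr hr5)
        (hN3 h) (hN4 h) (hN5 h) (hN6 h)
    have hcop : (eisensteinNumerator p).Coprime p := by
      have hn : eisensteinNumerator p ∣ p - 1 := by
        unfold eisensteinNumerator
        exact Nat.div_dvd_of_dvd (Nat.gcd_dvd_left _ _)
      have h1 : (p - 1).Coprime p := by
        have h2 : p - 1 + 1 = p := by omega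
        have : (p - 1).Coprime (p - 1 + 1) := by simp
        rwa [h2] at this
      exact Nat.Coprime.coprime_dvd_left hn h1
    have hlb : s16_IfaceLB p :=
      s16f_LB_of_exists_lift p
        (hlift p (eisensteinNumerator p) (s16f_n_pos p) hcop (s16f_psi p) (s16f_psi_parabolic p)
          (s16f_psi_finOrder p))
    exact m2d_main p hforms hlb

end Fermat.Agent.Lib.M2
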