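import Mathlib

/-!
# S16, block (DUAL), part 1b: two abstract lemmas

`φ : R →+* T` surjective, `ε : R →+* ℤ` surjective.

* `m2d_exists_gen`: `ε(ker φ) = mℤ` for some `m : ℕ`.
* `m2d_exists_psi`: if `T` is a free `ℤ`-module and `m ∣ ε P` whenever `φ P = 0`, there is a
  `ℤ`-linear `ψ : T → ℤ` with `ψ (φ P) ≡ ε P` modulo `m` for all `P`.
-/

set_option autoImplicit false

namespace Fermat.Agent.Lib.M2

theorem m2d_exists_gen {R T : Type*} [CommRing R] [CommRing T] (φ : R →+* T) (ε : R →+* ℤ)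
    (hε : Function.Surjective ε) :
    ∃ m : ℕ, ∀ a : ℤ, (∃ P : R, φ P = 0 ∧ ε P = a) ↔ (m : ℤ) ∣ a := by
  let J : Ideal ℤ := Ideal.map ε (RingHom.ker φ)
  have hJ : ∀ a : ℤ, a ∈ J ↔ ∃ P, φ P = 0 ∧ ε P = a := by
    intro a
    rw [Ideal.mem_map_iff_of_surjective _ hε]
    simp only [RingHom.mem_ker]
  obtain ⟨g, hg⟩ : ∃ g : ℤ, J = Ideal.span {g} :=
    ⟨_, (Ideal.span_singleton_generator J).symm⟩
  refine ⟨g.natAbs, fun a => ?_⟩
  rw [← hJ, hg, Ideal.mem_span_singleton, Int.natAbs_dvd]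

theorem m2d_exists_psi {R T : Type*} [CommRing R] [CommRing T] [Module.Free ℤ T]
    (φ : R →+* T) (hφ : Function.Surjective φ) (ε : R →+* ℤ) (m : ℤ)
    (hm : ∀ P : R, φ P = 0 → m ∣ ε P) :
    ∃ ψ : T →ₗ[ℤ] ℤ, ∀ P : R, m ∣ ψ (φ P) - ε P := by
  classical
  let b := Module.Free.chooseBasis ℤ T
  choose Pb hPb using fun i => hφ (b i)
  refine ⟨b.constr ℤ (fun i => ε (Pb i)), fun P => ?_⟩
  obtain ⟨Q, hQ⟩ : ∃ Q : R, Q = (b.repr (φ P)).sum (fun i c => c • Pb i) := ⟨_, rfl⟩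
  have hQφ : φ Q = φ P := by
    rw [hQ, map_finsuppSum]
    simp only [map_zsmul, hPb]
    exact b.linearCombination_repr (φ P)
  have hQε : ε Q = b.constr ℤ (fun i => ε (Pb i)) (φ P) := by
    rw [hQ, map_finsuppSum, Module.Basis.constr_apply]
    simp only [map_zsmul]
  have h0 : φ (Q - P) = 0 := by rw [map_sub, hQφ, sub_self]
  have := hm _ h0
  rw [map_sub, hQε] at this
  exact this

end Fermat.Agent.Lib.M2
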