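import Mathlib

/-!
# S16, block (DUAL), part 3: the abstract perfect pairing `𝕋 × L → ℤ`

`L` a finite free `ℤ`-module, `A` a commutative subalgebra of `End_ℤ L` (finite free), `a n` a family
of functionals on `L` (the `q`-coefficients) such that

* the `a n`, `n ≥ 1`, separate the points of `L`;
* `a n f = a 1 (t_n f)` for some `t_n ∈ A`;
* if `N ∣ a n f` for all `n ≥ 1` then `f ∈ N L`.

Then every `ℤ`-linear functional on `A` is of the form `t ↦ a 1 (t f)` for some `f ∈ L`.
-/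

set_option autoImplicit false

namespace Fermat.Agent.Lib.M2

open Module

theorem m2d_perfect {L : Type*} [AddCommGroup L] [Module.Finite ℤ L] [Module.Free ℤ L]
    (A : Subalgebra ℤ (Module.End ℤ L)) [Module.Finite ℤ A] [Module.Free ℤ A]
    (hcomm : ∀ s ∈ A, ∀ t ∈ A, s * t = t * s)
    (a : ℕ → (L →ₗ[ℤ] ℤ))
    (hsep : ∀ f : L, (∀ n, 1 ≤ n → a n f = 0) → f = 0)
    (hT : ∀ n, 1 ≤ n → ∃ t ∈ A, ∀ f, a n f = a 1 (t f))
    (hdiv : ∀ N : ℕ, 0 < N → ∀ f : L, (∀ n, 1 ≤ n → (N : ℤ) ∣ a n f) → ∃ g : L, f = N • g)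
    (ψ : A →ₗ[ℤ] ℤ) : ∃ f : L, ∀ t : A, ψ t = a 1 ((t : Module.End ℤ L) f) := by
  classical
  -- the pairing
  let Θ : A →ₗ[ℤ] (L →ₗ[ℤ] ℤ) :=
    LinearMap.mk₂ ℤ (fun (t : A) (f : L) => a 1 ((t : Module.End ℤ L) f))
      (fun t t' f => by simp [LinearMap.add_apply])
      (fun c t f => by simp)
      (fun t f f' => by simp)
      (fun c t f => by simp)
  let Λ : L →ₗ[ℤ] (A →ₗ[ℤ] ℤ) := Θ.flip
  have hΘ : ∀ t f, Θ t f = a 1 ((t : Module.End ℤ L) f) := fun _ _ => rfl
  have hΛ : ∀ f t, Λ f t = a 1 ((t : Module.End ℤ L) f) := fun _ _ => rfl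
  have hΛinj : Function.Injective Λ := by
    rw [← LinearMap.ker_eq_bot, LinearMap.ker_eq_bot']
    intro f hf
    apply hsep
    intro n hn
    obtain ⟨t, ht, htn⟩ := hT n hn
    rw [htn f]
    have := LinearMap.congr_fun hf ⟨t, ht⟩
    rw [hΛ] at this
    simpa using this
  have hΘinj : Function.Injective Θ := by
    rw [← LinearMap.ker_eq_bot, LinearMap.ker_eq_bot']
    intro t ht
    apply Subtype.ext
    apply LinearMap.ext
    intro f
    rw [ZeroMemClass.coe_zero, LinearMap.zero_apply]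
    apply hsep
    intro n hn
    obtain ⟨s, hs, hsn⟩ := hT n hn
    rw [hsn]
    have hst : s ((t : Module.End ℤ L) f) = (t : Module.End ℤ L) (s f) := by
      have := hcomm s hs t t.2
      have h2 := LinearMap.congr_fun this f
      simpa [Module.End.mul_apply] using h2
    rw [hst]
    have := LinearMap.congr_fun ht (s f)
    rw [hΘ] at this
    simpa using this
  -- ranks
  have h1 : finrank ℤ A ≤ finrank ℤ L := by
    have := LinearMap.finrank_le_finrank_of_injective hΘinj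
    rwa [Module.finrank_linearMap, Module.finrank_self, mul_one] at this
  have h2 : finrank ℤ L ≤ finrank ℤ A := by
    have := LinearMap.finrank_le_finrank_of_injective hΛinj
    rwa [Module.finrank_linearMap, Module.finrank_self, mul_one] at this
  have h3 : finrank ℤ (LinearMap.range Λ) = finrank ℤ (A →ₗ[ℤ] ℤ) := by
    rw [LinearMap.finrank_range_of_inj hΛinj, Module.finrank_linearMap, Module.finrank_self,
      mul_one]
    exact le_antisymm h2 h1
  have hfin : Finite ((A →ₗ[ℤ] ℤ) ⧸ LinearMap.range Λ) :=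
    Submodule.finiteQuotientOfFreeOfRankEq _ h3
  -- a multiple of `ψ` is in the range
  set N : ℕ := (LinearMap.range Λ).toAddSubgroup.index with hN
  have hNpos : 0 < N := by
    rw [hN, Nat.pos_iff_ne_zero]
    have hfin' : Finite ((A →ₗ[ℤ] ℤ) ⧸ (LinearMap.range Λ).toAddSubgroup) := hfin
    exact AddSubgroup.index_ne_zero_of_finite (H := (LinearMap.range Λ).toAddSubgroup)
  have hmem : N • ψ ∈ LinearMap.range Λ := by
    have := AddSubgroup.nsmul_index_mem (LinearMap.range Λ).toAddSubgroup ψ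
    exact this
  obtain ⟨f₀, hf₀⟩ := hmem
  obtain ⟨g, hg⟩ := hdiv N hNpos f₀ (by
    intro n hn
    obtain ⟨t, ht, htn⟩ := hT n hn
    rw [htn f₀]
    have := LinearMap.congr_fun hf₀ ⟨t, ht⟩
    rw [hΛ] at this
    refine ⟨ψ ⟨t, ht⟩, ?_⟩
    simp only at this
    rw [this]
    simp [LinearMap.smul_apply])
  refine ⟨g, fun t => ?_⟩
  have := LinearMap.congr_fun hf₀ t
  rw [hΛ, hg] at this
  have h4 : (N : ℤ) * a 1 ((t : Module.End ℤ L) g) = (N : ℤ) * ψ t := by
    rw [map_nsmul, map_nsmul] at this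
    simpa [LinearMap.smul_apply] using this
  have hN0 : (N : ℤ) ≠ 0 := by exact_mod_cast hNpos.ne'
  exact (mul_left_cancel₀ hN0 h4).symm

end Fermat.Agent.Lib.M2
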