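import Mathlib

/-!
# S16, block (DUAL), part 1: the abstract quotient computation

`R`, `T` commutative rings, `φ : R →+* T` surjective and `ε : R →+* ℤ`.  Then
`T ⧸ φ(ker ε) ≃ ℤ ⧸ ε(ker φ)`; in particular if `ε(ker φ) = mℤ` then the quotient has `m` elements
(`Nat.card`, so `0` if `m = 0`).
-/

set_option autoImplicit false

namespace Fermat.Agent.Lib.M2

/-- The cardinality of `T ⧸ φ(ker ε)` when `ε(ker φ) = mℤ`. -/
theorem m2d_card_quot {R T : Type*} [CommRing R] [CommRing T] (φ : R →+* T)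
    (hφ : Function.Surjective φ) (ε : R →+* ℤ) (m : ℕ)
    (hm : ∀ a : ℤ, (∃ P : R, φ P = 0 ∧ ε P = a) ↔ (m : ℤ) ∣ a) :
    Nat.card (T ⧸ Ideal.map φ (RingHom.ker ε)) = m := by
  set I : Ideal T := Ideal.map φ (RingHom.ker ε) with hI
  let ψ : ℤ →+* T ⧸ I := (Ideal.Quotient.mk I).comp (Int.castRingHom T)
  have hψsurj : Function.Surjective ψ := by
    intro x
    obtain ⟨t, rfl⟩ := Ideal.Quotient.mk_surjective x
    obtain ⟨P, rfl⟩ := hφ t
    refine ⟨ε P, ?_⟩
    have hmem : P - ((ε P : ℤ) : R) ∈ RingHom.ker ε := by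
      rw [RingHom.mem_ker, map_sub, map_intCast]
      simp
    have : φ (P - ((ε P : ℤ) : R)) ∈ I := Ideal.mem_map_of_mem φ hmem
    rw [map_sub, map_intCast] at this
    change (Ideal.Quotient.mk I) (((ε P : ℤ) : T)) = (Ideal.Quotient.mk I) (φ P)
    rw [eq_comm, Ideal.Quotient.eq]
    exact this
  have hker : RingHom.ker ψ = Ideal.span {(m : ℤ)} := by
    ext a
    rw [RingHom.mem_ker, Ideal.mem_span_singleton, ← hm a]
    change (Ideal.Quotient.mk I) ((a : T)) = 0 ↔ _
    rw [Ideal.Quotient.eq_zero_iff_mem]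
    constructor
    · intro ha
      have : (a : T) ∈ Ideal.map φ (RingHom.ker ε) := ha
      rw [Ideal.mem_map_iff_of_surjective φ hφ] at this
      obtain ⟨Q, hQ, hQa⟩ := this
      refine ⟨(a : R) - Q, ?_, ?_⟩
      · rw [map_sub, map_intCast, hQa, sub_self]
      · rw [map_sub, map_intCast, RingHom.mem_ker.mp hQ]
        simp
    · rintro ⟨P, hP0, hPa⟩
      have hmem : (a : R) - P ∈ RingHom.ker ε := by
        rw [RingHom.mem_ker, map_sub, map_intCast, hPa]
        simp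
      have := Ideal.mem_map_of_mem φ hmem
      rwa [map_sub, map_intCast, hP0, sub_zero] at this
  have e1 : (ℤ ⧸ RingHom.ker ψ) ≃+* (T ⧸ I) := RingHom.quotientKerEquivOfSurjective hψsurj
  have e2 : (ℤ ⧸ Ideal.span {(m : ℤ)}) ≃+* ZMod m := Int.quotientSpanNatEquivZMod m
  rw [← Nat.card_congr e1.toEquiv, hker, Nat.card_congr e2.toEquiv, Nat.card_zmod]

end Fermat.Agent.Lib.M2
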