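import Mathlib

/-!
# S16, block (DUAL), part 2: the Eisenstein coefficients `σ'(k)`

`m2d_sig p k = Σ_{d ∣ k, p ∤ d} d` (as an integer) and the Hecke recursions

* `m2d_sig p 1 = 1`;
* `m2d_sig p (k * p) = m2d_sig p k`;
* `m2d_sig p (k * ℓ) = (1 + ℓ) * m2d_sig p k - [ℓ ∣ k] ℓ * m2d_sig p (k / ℓ)` for primes `ℓ ≠ p`.
-/

set_option autoImplicit false

namespace Fermat.Agent.Lib.M2

/-- `σ'(k)`: the sum of the divisors of `k` prime to `p`, as an integer. -/
def m2d_sig (p k : ℕ) : ℤ := ∑ d ∈ k.divisors, if p ∣ d then 0 else (d : ℤ)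

theorem m2d_sig_one {p : ℕ} (hp : p.Prime) : m2d_sig p 1 = 1 := by
  have : ¬ p ∣ 1 := fun h => hp.one_lt.ne' (Nat.dvd_one.mp h)
  simp [m2d_sig, this]

theorem m2d_sig_mul_self {p : ℕ} (hp : p.Prime) (k : ℕ) (hk : 1 ≤ k) :
    m2d_sig p (k * p) = m2d_sig p k := by
  unfold m2d_sig
  symm
  apply Finset.sum_subset
  · intro d hd
    rw [Nat.mem_divisors] at hd ⊢
    exact ⟨Dvd.dvd.mul_right hd.1 p, Nat.mul_ne_zero hd.2 hp.ne_zero⟩
  · intro d hd hd'
    rw [Nat.mem_divisors] at hd hd'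
    by_cases hpd : p ∣ d
    · rw [if_pos hpd]
    · exfalso
      apply hd'
      refine ⟨?_, by omega⟩
      have hcop : Nat.Coprime d p := (Nat.Coprime.symm ((Nat.Prime.coprime_iff_not_dvd hp).mpr hpd))
      exact hcop.dvd_of_dvd_mul_right hd.1

theorem m2d_sig_mul_prime {p ℓ : ℕ} (hp : p.Prime) (hℓ : ℓ.Prime) (hne : ℓ ≠ p) (k : ℕ)
    (hk : 1 ≤ k) :
    m2d_sig p (k * ℓ) =
      (1 + (ℓ : ℤ)) * m2d_sig p k - (if ℓ ∣ k then (ℓ : ℤ) * m2d_sig p (k / ℓ) else 0) := by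
  classical
  set g : ℕ → ℤ := fun d => if p ∣ d then 0 else (d : ℤ) with hgdef
  have hpl : ¬ p ∣ ℓ := fun h => hne ((Nat.prime_dvd_prime_iff_eq hp hℓ).mp h).symm
  have hg : ∀ d, g (d * ℓ) = (ℓ : ℤ) * g d := by
    intro d
    simp only [hgdef]
    by_cases hpd : p ∣ d
    · rw [if_pos hpd, if_pos (Dvd.dvd.mul_right hpd ℓ), mul_zero]
    · have : ¬ p ∣ d * ℓ := fun h => (hp.dvd_mul.mp h).elim hpd hpl
      rw [if_neg hpd, if_neg this]
      push_cast
      ring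
  have hinj : Function.Injective (fun d : ℕ => d * ℓ) := fun a b hab =>
    Nat.eq_of_mul_eq_mul_right hℓ.pos hab
  have h1 : (k * ℓ).divisors = k.divisors ∪ k.divisors.image (fun d => d * ℓ) := by
    ext d
    simp only [Nat.mem_divisors, Finset.mem_union, Finset.mem_image]
    constructor
    · rintro ⟨hd, -⟩
      by_cases hld : ℓ ∣ d
      · right
        obtain ⟨e, rfl⟩ := hld
        refine ⟨e, ⟨?_, by omega⟩, by ring⟩
        rw [mul_comm ℓ e] at hd
        exact Nat.dvd_of_mul_dvd_mul_right hℓ.pos hd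
      · left
        refine ⟨?_, by omega⟩
        have hcop : Nat.Coprime d ℓ := (Nat.Coprime.symm ((Nat.Prime.coprime_iff_not_dvd hℓ).mpr hld))
        exact hcop.dvd_of_dvd_mul_right hd
    · rintro (⟨hd, -⟩ | ⟨e, ⟨he, -⟩, rfl⟩)
      · exact ⟨Dvd.dvd.mul_right hd ℓ, Nat.mul_ne_zero (by omega) hℓ.ne_zero⟩
      · exact ⟨Nat.mul_dvd_mul_right he ℓ, Nat.mul_ne_zero (by omega) hℓ.ne_zero⟩
  have h2 : k.divisors ∩ k.divisors.image (fun d => d * ℓ) =
      if ℓ ∣ k then (k / ℓ).divisors.image (fun d => d * ℓ) else ∅ := by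
    split_ifs with hlk
    · obtain ⟨k', rfl⟩ := hlk
      have hk' : 1 ≤ k' := by
        rcases Nat.eq_zero_or_pos k' with h | h
        · subst h; omega
        · exact h
      rw [Nat.mul_div_cancel_left k' hℓ.pos]
      ext d
      simp only [Finset.mem_inter, Nat.mem_divisors, Finset.mem_image]
      constructor
      · rintro ⟨⟨hd, -⟩, e, ⟨-, -⟩, rfl⟩
        refine ⟨e, ⟨?_, by omega⟩, rfl⟩
        rw [mul_comm ℓ k'] at hd
        exact Nat.dvd_of_mul_dvd_mul_right hℓ.pos hd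
      · rintro ⟨e, ⟨he, -⟩, rfl⟩
        refine ⟨⟨?_, by omega⟩, e, ⟨?_, by omega⟩, rfl⟩
        · rw [mul_comm ℓ k']
          exact Nat.mul_dvd_mul_right he ℓ
        · exact Dvd.dvd.mul_left he ℓ
    · ext d
      simp only [Finset.mem_inter, Nat.mem_divisors, Finset.mem_image, Finset.notMem_empty,
        iff_false]
      rintro ⟨⟨hd, -⟩, e, -, rfl⟩
      exact hlk (Dvd.dvd.trans (Dvd.intro_left e rfl) hd)
  have h3 := Finset.sum_union_inter (s₁ := k.divisors)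
    (s₂ := k.divisors.image (fun d => d * ℓ)) (f := g)
  have h4 : ∑ d ∈ k.divisors.image (fun d => d * ℓ), g d = (ℓ : ℤ) * ∑ d ∈ k.divisors, g d := by
    rw [Finset.sum_image (fun a _ b _ hab => hinj hab), Finset.mul_sum]
    exact Finset.sum_congr rfl fun d _ => hg d
  have h5 : ∑ d ∈ k.divisors ∩ k.divisors.image (fun d => d * ℓ), g d =
      if ℓ ∣ k then (ℓ : ℤ) * ∑ d ∈ (k / ℓ).divisors, g d else 0 := by
    rw [h2]
    split_ifs with hlk
    · rw [Finset.sum_image (fun a _ b _ hab => hinj hab), Finset.mul_sum]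
      exact Finset.sum_congr rfl fun d _ => hg d
    · simp
  rw [← h1, h4, h5] at h3
  change ∑ d ∈ (k * ℓ).divisors, g d = (1 + (ℓ : ℤ)) * ∑ d ∈ k.divisors, g d -
    (if ℓ ∣ k then (ℓ : ℤ) * ∑ d ∈ (k / ℓ).divisors, g d else 0)
  linarith

end Fermat.Agent.Lib.M2
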