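import Mathlib
import Fermat.Agent.Lib.Hecke.Lattice
import Fermat.Agent.Lib.Integral.QSide
import Fermat.Agent.Lib.M2.DualQuot
import Fermat.Agent.Lib.M2.DualSig
import Fermat.Agent.Lib.M2.DualPair
import Fermat.Agent.Lib.M2.DualLift
import Fermat.Agent.Lib.S16.Assembly

/-!
# S16, block (DUAL): duality and the final assembly

`𝕋 = heckeLatticeAlgebra p ∅ ⊂ End_ℤ L`, `L = intLattice p 2`, `φ : ℤ[X_ℓ] ↠ 𝕋`,
`ε : ℤ[X_ℓ] → ℤ` the Eisenstein evaluation, `I = φ(ker ε)`.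

* `m2d_cz N k : L →ₗ[ℤ] ℤ`: the integer valued `k`-th `q`-coefficient;
* `m2d_op N P : End_ℤ L`: the action of the Hecke polynomial `P`; coefficient formulas
  `m2d_cz_X_of_not_dvd`, `m2d_cz_X_of_dvd`;
* `m2d_phi_surjective`;
* `m2d_EisMod_op` / `m2d_EisMod_of_one`: formal Hecke calculus on forms congruent to a multiple of
  the Eisenstein series `∑ σ'(k) q^k`;
* `m2d_exists_form`: (duality) if `ε(ker φ) ⊆ mℤ` there is `f ∈ L` with `a_k(f) ≡ σ'(k) mod m`;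
* `m2d_main`: `s16_IfaceForms p → s16_IfaceLB p → Nat.card (𝕋 ⧸ I) = eisensteinNumerator p`.
-/

set_option autoImplicit false

namespace Fermat.Agent.Lib.M2

open ModularFormClass CuspForm CongruenceSubgroup ModularCurve
open Fermat.Agent.Lib.QCoeff Fermat.Agent.Lib.Lattice Fermat.Agent.Lib.Integral

variable (N : ℕ) [NeZero N]

/-- the integer valued `k`-th coefficient on the lattice, as a function -/
noncomputable def m2d_czFun (k : ℕ) (f : ↥(intLattice N 2)) : ℤ :=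
  Classical.choose ((mem_intLattice_iff f.1).mp f.2 k)

omit [NeZero N] in
theorem m2d_czFun_spec (k : ℕ) (f : ↥(intLattice N 2)) :
    ((m2d_czFun N k f : ℤ) : ℂ) = qCoeff ⇑(f : CuspForm (Gamma0 N) 2) k :=
  (Classical.choose_spec ((mem_intLattice_iff f.1).mp f.2 k)).symm

/-- the integer valued `k`-th coefficient on the lattice -/
noncomputable def m2d_cz (k : ℕ) : ↥(intLattice N 2) →ₗ[ℤ] ℤ where
  toFun f := m2d_czFun N k f
  map_add' f g := by
    have h : ((m2d_czFun N k (f + g) : ℤ) : ℂ) =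
        ((m2d_czFun N k f + m2d_czFun N k g : ℤ) : ℂ) := by
      rw [Int.cast_add, m2d_czFun_spec, m2d_czFun_spec, m2d_czFun_spec, ← qCoeff_add]
      rfl
    exact_mod_cast h
  map_smul' c f := by
    have h : ((m2d_czFun N k (c • f) : ℤ) : ℂ) = ((c * m2d_czFun N k f : ℤ) : ℂ) := by
      rw [Int.cast_mul, m2d_czFun_spec, m2d_czFun_spec, ← qCoeff_zsmul]
      rfl
    simp only [RingHom.id_apply, smul_eq_mul]
    exact_mod_cast h

omit [NeZero N] in
theorem m2d_cz_spec (k : ℕ) (f : ↥(intLattice N 2)) :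
    ((m2d_cz N k f : ℤ) : ℂ) = qCoeff ⇑(f : CuspForm (Gamma0 N) 2) k :=
  m2d_czFun_spec N k f

/-- action of the lattice Hecke algebra: underlying form -/
theorem m2d_act_coe (t : ↥(heckeAlgebra N 2 ∅)) (f : ↥(intLattice N 2)) :
    ((((latticeRestrictHom N ∅ t : ↥(heckeLatticeAlgebra N ∅)) :
      Module.End ℤ ↥(intLattice N 2)) f : ↥(intLattice N 2)) : CuspForm (Gamma0 N) 2) =
      (t : Module.End ℂ (CuspForm (Gamma0 N) 2)) (f : CuspForm (Gamma0 N) 2) := rfl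


/-- The action of a Hecke polynomial on the lattice, as a ring hom. -/
noncomputable def m2d_op : HeckeAlg →+* Module.End ℤ ↥(intLattice N 2) :=
  (heckeLatticeAlgebra N ∅).val.toRingHom.comp
    ((latticeRestrictHom N ∅).toRingHom.comp (heckeEvalForms N 2))

theorem m2d_op_apply_coe (P : HeckeAlg) (f : ↥(intLattice N 2)) :
    ((m2d_op N P f : ↥(intLattice N 2)) : CuspForm (Gamma0 N) 2) =
      ((heckeEvalForms N 2 P : ↥(heckeAlgebra N 2 ∅)) :
        Module.End ℂ (CuspForm (Gamma0 N) 2)) (f : CuspForm (Gamma0 N) 2) := rfl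

theorem m2d_op_eq_zero_iff (P : HeckeAlg) :
    m2d_op N P = 0 ↔ (latticeRestrictHom N ∅).toRingHom.comp (heckeEvalForms N 2) P = 0 := by
  constructor
  · intro h
    exact Subtype.ext h
  · intro h
    change ((((latticeRestrictHom N ∅).toRingHom.comp (heckeEvalForms N 2)) P :
      ↥(heckeLatticeAlgebra N ∅)) : Module.End ℤ ↥(intLattice N 2)) = 0
    rw [h]
    rfl

theorem m2d_op_C (a : ℤ) (f : ↥(intLattice N 2)) : m2d_op N (MvPolynomial.C a) f = a • f := by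
  apply Subtype.ext
  rw [m2d_op_apply_coe, heckeEvalForms_C]
  simp

/-- coefficients of `T_ℓ f` on the lattice -/
theorem m2d_cz_X_of_not_dvd {ℓ : Nat.Primes} (h : ¬ (ℓ : ℕ) ∣ N) (f : ↥(intLattice N 2)) (k : ℕ) :
    m2d_cz N k (m2d_op N (heckeGen ℓ) f) =
      m2d_cz N (k * ℓ) f + if (ℓ : ℕ) ∣ k then (ℓ : ℤ) * m2d_cz N (k / ℓ) f else 0 := by
  have h1 : ((m2d_cz N k (m2d_op N (heckeGen ℓ) f) : ℤ) : ℂ) =
      ((m2d_cz N (k * ℓ) f + if (ℓ : ℕ) ∣ k then (ℓ : ℤ) * m2d_cz N (k / ℓ) f else 0 : ℤ) : ℂ) := by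
    rw [m2d_cz_spec, m2d_op_apply_coe, heckeEvalForms_heckeGen_of_not_dvd h, heckeAlgebra.coe_T,
      qCoeff_heckeTLin ℓ.2 h]
    push_cast
    rw [m2d_cz_spec]
    split_ifs with hk
    · rw [m2d_cz_spec]
      norm_num
    · rfl
  exact_mod_cast h1

/-- coefficients of `U_q f` on the lattice -/
theorem m2d_cz_X_of_dvd {q : Nat.Primes} (h : (q : ℕ) ∣ N) (f : ↥(intLattice N 2)) (k : ℕ) :
    m2d_cz N k (m2d_op N (heckeGen q) f) = m2d_cz N (k * q) f := by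
  have h1 : ((m2d_cz N k (m2d_op N (heckeGen q) f) : ℤ) : ℂ) = ((m2d_cz N (k * q) f : ℤ) : ℂ) := by
    rw [m2d_cz_spec, m2d_op_apply_coe, heckeEvalForms_heckeGen_of_dvd h, heckeAlgebra.coe_U,
      qCoeff_heckeULin q.2 h, m2d_cz_spec]
  exact_mod_cast h1


theorem m2d_heckeEvalForms_surjective (k : ℤ) : Function.Surjective (heckeEvalForms N k) := by
  rintro ⟨t, ht⟩
  induction ht using Algebra.adjoin_induction with
  | mem x hx =>
    rcases hx with ⟨ℓ, hℓ, hℓN, -, rfl⟩ | ⟨q, hqN, hq, -, rfl⟩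
    · refine ⟨heckeGen ⟨ℓ, hℓ⟩, ?_⟩
      rw [heckeEvalForms_heckeGen_of_not_dvd (ℓ := ⟨ℓ, hℓ⟩) hℓN]
      rfl
    · refine ⟨heckeGen ⟨q, hq⟩, ?_⟩
      rw [heckeEvalForms_heckeGen_of_dvd (q := ⟨q, hq⟩) hqN]
      rfl
  | algebraMap r =>
    refine ⟨MvPolynomial.C r, ?_⟩
    rw [heckeEvalForms_C]
    rfl
  | add x y hx hy ihx ihy =>
    obtain ⟨P, hP⟩ := ihx
    obtain ⟨Q, hQ⟩ := ihy
    refine ⟨P + Q, ?_⟩
    rw [map_add, hP, hQ]
    rfl
  | mul x y hx hy ihx ihy =>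
    obtain ⟨P, hP⟩ := ihx
    obtain ⟨Q, hQ⟩ := ihy
    refine ⟨P * Q, ?_⟩
    rw [map_mul, hP, hQ]
    rfl

theorem m2d_phi_surjective :
    Function.Surjective ((latticeRestrictHom N ∅).toRingHom.comp (heckeEvalForms N 2)) := by
  intro t
  obtain ⟨s, rfl⟩ := latticeRestrictHom_surjective N ∅ t
  obtain ⟨P, rfl⟩ := m2d_heckeEvalForms_surjective N 2 s
  exact ⟨P, rfl⟩

section Eis

variable (p : ℕ) [hp : Fact p.Prime]

/-- the Eisenstein evaluation -/
noncomputable def m2d_eps : HeckeAlg →+* ℤ :=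
  (MvPolynomial.aeval (R := ℤ) (eisensteinSystem p)).toRingHom

omit hp in
theorem m2d_eps_X (ℓ : Nat.Primes) : m2d_eps p (heckeGen ℓ) = eisensteinSystem p ℓ := by
  simp [m2d_eps, heckeGen]

omit hp in
theorem m2d_eps_C (a : ℤ) : m2d_eps p (MvPolynomial.C a) = a := by
  simp [m2d_eps]

/-- `g` is congruent to `c` times the Eisenstein series modulo `M` -/
def m2d_EisMod (M c : ℤ) (g : ↥(intLattice p 2)) : Prop :=
  ∀ k : ℕ, 1 ≤ k → M ∣ m2d_cz p k g - c * m2d_sig p k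

omit hp in
theorem m2d_EisMod_add {M c c' : ℤ} {g g' : ↥(intLattice p 2)} (h : m2d_EisMod p M c g)
    (h' : m2d_EisMod p M c' g') : m2d_EisMod p M (c + c') (g + g') := by
  intro k hk
  have := dvd_add (h k hk) (h' k hk)
  rw [map_add]
  obtain ⟨z, hz⟩ := this
  exact ⟨z, by linear_combination hz⟩

omit hp in
theorem m2d_EisMod_smul {M c : ℤ} {g : ↥(intLattice p 2)} (a : ℤ) (h : m2d_EisMod p M c g) :
    m2d_EisMod p M (c * a) (a • g) := by
  intro k hk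
  have := Dvd.dvd.mul_left (h k hk) a
  rw [map_smul, smul_eq_mul]
  obtain ⟨z, hz⟩ := this
  exact ⟨z, by linear_combination hz⟩

theorem m2d_EisMod_X {M c : ℤ} {g : ↥(intLattice p 2)} (ℓ : Nat.Primes)
    (h : m2d_EisMod p M c g) :
    m2d_EisMod p M (c * m2d_eps p (heckeGen ℓ)) (m2d_op p (heckeGen ℓ) g) := by
  have hpp : p.Prime := hp.out
  intro k hk
  rw [m2d_eps_X]
  by_cases hℓ : (ℓ : ℕ) ∣ p
  · have hℓp : (ℓ : ℕ) = p := (Nat.prime_dvd_prime_iff_eq ℓ.2 hpp).mp hℓ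
    rw [m2d_cz_X_of_dvd p hℓ, eisensteinSystem_of_dvd hℓ, mul_one]
    have h1 := h (k * ℓ) (Nat.mul_pos hk ℓ.2.pos)
    rw [hℓp, m2d_sig_mul_self hpp k hk] at h1
    rw [hℓp]
    exact h1
  · have hne : (ℓ : ℕ) ≠ p := fun h => hℓ (h ▸ dvd_rfl)
    rw [m2d_cz_X_of_not_dvd p hℓ, eisensteinSystem_of_not_dvd hℓ]
    have h1 := h (k * ℓ) (Nat.mul_pos hk ℓ.2.pos)
    rw [m2d_sig_mul_prime hpp ℓ.2 hne k hk] at h1
    split_ifs at h1 ⊢ with hlk
    · have hk' : 1 ≤ k / ℓ := Nat.div_pos (Nat.le_of_dvd hk hlk) ℓ.2.pos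
      have h2 := Dvd.dvd.mul_left (h (k / ℓ) hk') (ℓ : ℤ)
      obtain ⟨z, hz⟩ := dvd_add h1 h2
      exact ⟨z, by linear_combination hz⟩
    · obtain ⟨z, hz⟩ := h1
      exact ⟨z, by linear_combination hz⟩

/-- forward: the Hecke action multiplies the Eisenstein multiplier by `ε(P)` -/
theorem m2d_EisMod_op {M : ℤ} (P : HeckeAlg) :
    ∀ (c : ℤ) (g : ↥(intLattice p 2)), m2d_EisMod p M c g →
      m2d_EisMod p M (c * m2d_eps p P) (m2d_op p P g) := by
  induction P using MvPolynomial.induction_on with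
  | C a =>
    intro c g h
    rw [m2d_eps_C, m2d_op_C]
    exact m2d_EisMod_smul p a h
  | add P Q hP hQ =>
    intro c g h
    rw [map_add, map_add, LinearMap.add_apply, mul_add]
    exact m2d_EisMod_add p (hP c g h) (hQ c g h)
  | mul_X P ℓ hP =>
    intro c g h
    have h1 := m2d_EisMod_X p ℓ h
    have h2 := hP _ _ h1
    rw [map_mul, map_mul, Module.End.mul_apply]
    have hX : (MvPolynomial.X ℓ : HeckeAlg) = heckeGen ℓ := rfl
    rw [hX]
    have e : c * (m2d_eps p P * m2d_eps p (heckeGen ℓ)) = c * m2d_eps p (heckeGen ℓ) * m2d_eps p P := by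
      ring
    rw [e]
    exact h2

/-- backward: if `a₁(P(T) f) ≡ ε(P)` for all `P` then `a_k(P(T) f) ≡ ε(P) σ'(k)`. -/
theorem m2d_EisMod_of_one {M : ℤ} (f : ↥(intLattice p 2))
    (h : ∀ P : HeckeAlg, M ∣ m2d_cz p 1 (m2d_op p P f) - m2d_eps p P) :
    ∀ k : ℕ, 1 ≤ k → ∀ P : HeckeAlg,
      M ∣ m2d_cz p k (m2d_op p P f) - m2d_eps p P * m2d_sig p k := by
  have hpp : p.Prime := hp.out
  intro k
  induction k using Nat.strong_induction_on with
  | _ k ih =>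
    intro hk P
    rcases Nat.lt_or_ge k 2 with h2 | h2
    · obtain rfl : k = 1 := by omega
      rw [m2d_sig_one hpp, mul_one]
      exact h P
    · have hℓ : k.minFac.Prime := Nat.minFac_prime (by omega)
      set ℓ : Nat.Primes := ⟨k.minFac, hℓ⟩ with hℓdef
      obtain ⟨m, hm⟩ : (ℓ : ℕ) ∣ k := Nat.minFac_dvd k
      have hm' : k = m * ℓ := by rw [hm, mul_comm]
      have hℓ2 : 2 ≤ (ℓ : ℕ) := hℓ.two_le
      have hm1 : 1 ≤ m := by
        rcases Nat.eq_zero_or_pos m with h0 | h0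
        · subst h0; omega
        · exact h0
      have hmk : m < k := by
        rw [hm']
        exact lt_mul_of_one_lt_right hm1 hℓ2
      have hop : m2d_op p (heckeGen ℓ * P) f = m2d_op p (heckeGen ℓ) (m2d_op p P f) := by
        rw [map_mul, Module.End.mul_apply]
      have h1 := ih m hmk hm1 (heckeGen ℓ * P)
      rw [hop, map_mul, m2d_eps_X] at h1
      by_cases hℓp : (ℓ : ℕ) ∣ p
      · have hℓeq : (ℓ : ℕ) = p := (Nat.prime_dvd_prime_iff_eq ℓ.2 hpp).mp hℓp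
        rw [m2d_cz_X_of_dvd p hℓp, eisensteinSystem_of_dvd hℓp, one_mul] at h1
        rw [hm', hℓeq, m2d_sig_mul_self hpp m hm1]
        rw [hℓeq] at h1
        exact h1
      · have hne : (ℓ : ℕ) ≠ p := fun h => hℓp (h ▸ dvd_rfl)
        rw [m2d_cz_X_of_not_dvd p hℓp, eisensteinSystem_of_not_dvd hℓp] at h1
        rw [hm', m2d_sig_mul_prime hpp ℓ.2 hne m hm1]
        split_ifs at h1 ⊢ with hlm
        · have hm'1 : 1 ≤ m / ℓ := Nat.div_pos (Nat.le_of_dvd hm1 hlm) ℓ.2.pos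
          have hm'k : m / ℓ < k := lt_of_le_of_lt (Nat.div_le_self m ℓ) hmk
          have h2' := Dvd.dvd.mul_left (ih (m / ℓ) hm'k hm'1 P) (ℓ : ℤ)
          obtain ⟨z, hz⟩ := dvd_sub h1 h2'
          exact ⟨z, by linear_combination hz⟩
        · obtain ⟨z, hz⟩ := h1
          exact ⟨z, by linear_combination hz⟩


omit hp in
theorem m2d_sig_eq_s16 (k : ℕ) : m2d_sig p k = ((Fermat.Agent.Lib.S16.s16_sigma p k : ℕ) : ℤ) := by
  unfold m2d_sig Fermat.Agent.Lib.S16.s16_sigma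
  rw [Finset.sum_filter]
  push_cast
  refine Finset.sum_congr rfl fun d _ => ?_
  split_ifs <;> simp

/-- hypotheses of the abstract pairing lemma, for the lattice of level `p` -/
theorem m2d_hsep (f : ↥(intLattice p 2)) (h : ∀ n, 1 ≤ n → m2d_cz p n f = 0) : f = 0 := by
  apply Subtype.ext
  refine eq_zero_of_qCoeff (f : CuspForm (Gamma0 p) 2) fun n hn => ?_
  rw [← m2d_cz_spec, h n hn]
  simp

theorem m2d_hT (n : ℕ) (hn : 1 ≤ n) :
    ∃ t ∈ heckeLatticeAlgebra p ∅, ∀ f, m2d_cz p n f = m2d_cz p 1 (t f) := by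
  obtain ⟨t₀, ht₀, h⟩ := intQ_hT p n hn
  refine ⟨((latticeRestrictHom p ∅ ⟨t₀, ht₀⟩ : ↥(heckeLatticeAlgebra p ∅)) :
    Module.End ℤ ↥(intLattice p 2)), Subtype.coe_prop _, fun f => ?_⟩
  have h1 : ((m2d_cz p n f : ℤ) : ℂ) =
      ((m2d_cz p 1 (((latticeRestrictHom p ∅ ⟨t₀, ht₀⟩ : ↥(heckeLatticeAlgebra p ∅)) :
        Module.End ℤ ↥(intLattice p 2)) f) : ℤ) : ℂ) := by
    rw [m2d_cz_spec, m2d_cz_spec, m2d_act_coe]
    exact h (f : CuspForm (Gamma0 p) 2)
  exact_mod_cast h1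

omit hp in
theorem m2d_hdiv (N : ℕ) (hN : 0 < N) (f : ↥(intLattice p 2))
    (h : ∀ n, 1 ≤ n → (N : ℤ) ∣ m2d_cz p n f) : ∃ g : ↥(intLattice p 2), f = N • g := by
  have hmem : (f : CuspForm (Gamma0 p) 2) ∈ divLattice p 2 (N : ℤ) := by
    intro n
    rcases Nat.eq_zero_or_pos n with rfl | hn
    · exact ⟨0, by rw [qCoeff_zero]; simp⟩
    · obtain ⟨c, hc⟩ := h n hn
      refine ⟨c, ?_⟩
      rw [← m2d_cz_spec, hc]
  have hN0 : (N : ℤ) ≠ 0 := by exact_mod_cast hN.ne'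
  obtain ⟨g, hg, hfg⟩ := exists_eq_smul_of_mem_divLattice hN0 hmem
  refine ⟨⟨g, hg⟩, Subtype.ext ?_⟩
  rw [hfg]
  simp



/-- the ring hom `φ : ℤ[X_ℓ] → 𝕋` -/
noncomputable def m2d_phi : HeckeAlg →+* ↥(heckeLatticeAlgebra p ∅) :=
  (latticeRestrictHom p ∅).toRingHom.comp (heckeEvalForms p 2)

theorem m2d_phi_coe (P : HeckeAlg) : ((m2d_phi p P : ↥(heckeLatticeAlgebra p ∅)) :
    Module.End ℤ ↥(intLattice p 2)) = m2d_op p P := rfl

theorem m2d_phi_C (a : ℤ) :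
    m2d_phi p (MvPolynomial.C a) = algebraMap ℤ ↥(heckeLatticeAlgebra p ∅) a := by
  rw [← MvPolynomial.algebraMap_eq]
  exact (AlgHom.commutes ((latticeRestrictHom p ∅).comp
    (MvPolynomial.aeval (heckeFormsGen p 2))) _)

open Fermat.Agent.Lib.S16 in
omit hp in
theorem m2d_I_eq [Fact p.Prime] : s16_I p = Ideal.map (m2d_phi p) (RingHom.ker (m2d_eps p)) := rfl

open Fermat.Agent.Lib.S16 in
/-- (LB) in polynomial form -/
theorem m2d_LB_poly (hLB : s16_IfaceLB p) (P : HeckeAlg) (hP : m2d_phi p P = 0) :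
    (eisensteinNumerator p : ℤ) ∣ m2d_eps p P := by
  have hmem : MvPolynomial.C (m2d_eps p P) - P ∈ RingHom.ker (m2d_eps p) := by
    rw [RingHom.mem_ker, map_sub, m2d_eps_C, sub_self]
  have h2 : m2d_phi p (MvPolynomial.C (m2d_eps p P) - P) ∈ s16_I p := by
    rw [m2d_I_eq]
    exact Ideal.mem_map_of_mem (m2d_phi p) hmem
  rw [map_sub, hP, sub_zero, m2d_phi_C] at h2
  exact hLB _ h2

/-- duality: a cusp form congruent to the Eisenstein series modulo `m`, if `ε(ker φ) ⊆ mℤ` -/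
theorem m2d_exists_form (m : ℤ) (hm : ∀ P : HeckeAlg, m2d_phi p P = 0 → m ∣ m2d_eps p P) :
    ∃ f : ↥(intLattice p 2), ∀ k, 1 ≤ k → m ∣ m2d_cz p k f - m2d_sig p k := by
  obtain ⟨ψ, hψ⟩ := m2d_exists_psi (m2d_phi p) (m2d_phi_surjective p) (m2d_eps p) m hm
  have := intLattice.moduleFinite p
  have := intLattice.moduleFree p
  obtain ⟨f, hf⟩ := m2d_perfect (heckeLatticeAlgebra p ∅)
    (fun s hs t ht => congrArg Subtype.val
      (mul_comm (⟨s, hs⟩ : ↥(heckeLatticeAlgebra p ∅)) ⟨t, ht⟩))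
    (m2d_cz p) (m2d_hsep p) (m2d_hT p) (m2d_hdiv p) ψ
  refine ⟨f, fun k hk => ?_⟩
  have h2 : ∀ P, m ∣ m2d_cz p 1 (m2d_op p P f) - m2d_eps p P := by
    intro P
    have := hψ P
    rw [hf (m2d_phi p P), m2d_phi_coe] at this
    exact this
  have := m2d_EisMod_of_one p f h2 k hk 1
  simpa using this

open Fermat.Agent.Lib.S16 in
/-- **S16 from the forms statement and the lower bound.** -/
theorem m2d_main (hForms : s16_IfaceForms p) (hLB : s16_IfaceLB p) :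
    Nat.card (↥(heckeLatticeAlgebra p ∅) ⧸ s16_I p) = eisensteinNumerator p := by
  have hnpos : 0 < eisensteinNumerator p := s16_eisensteinNumerator_pos p
  obtain ⟨m, hm⟩ := m2d_exists_gen (m2d_phi p) (m2d_eps p)
    (fun a => ⟨MvPolynomial.C a, m2d_eps_C p a⟩)
  -- (LB): `n ∣ m`
  have h1 : eisensteinNumerator p ∣ m := by
    obtain ⟨P, hP0, hPm⟩ := (hm m).mpr dvd_rfl
    have := m2d_LB_poly p hLB P hP0
    rw [hPm] at this
    exact Int.natCast_dvd_natCast.mp this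
  obtain ⟨f, h4⟩ := m2d_exists_form p (m : ℤ) (fun P hP => (hm _).mp ⟨P, hP, rfl⟩)
  have hint : ∀ k : ℕ, ∃ c : ℤ, qCoeff ⇑(f : CuspForm (Gamma0 p) 2) k = (c : ℂ) :=
    (mem_intLattice_iff (f : CuspForm (Gamma0 p) 2)).mp f.2
  -- `m ≠ 0`
  have hm0 : 0 < m := by
    rcases Nat.eq_zero_or_pos m with h0 | h0
    · exfalso
      have h5 : ∀ k, 1 ≤ k → m2d_cz p k f = m2d_sig p k := by
        intro k hk
        have := h4 k hk
        rw [h0] at this
        simpa [sub_eq_zero] using this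
      have := hForms (f : CuspForm (Gamma0 p) 2) (2 * eisensteinNumerator p) (by omega) hint (by
        intro k hk
        refine ⟨0, ?_⟩
        rw [← m2d_cz_spec, h5 k hk, m2d_sig_eq_s16]
        simp)
      have := Nat.le_of_dvd hnpos this
      omega
    · exact h0
  -- (UB): `m ∣ n`
  have h6 : m ∣ eisensteinNumerator p := by
    refine hForms (f : CuspForm (Gamma0 p) 2) m hm0 hint ?_
    intro k hk
    obtain ⟨c, hc⟩ := h4 k hk
    refine ⟨c, ?_⟩
    have : m2d_cz p k f = m2d_sig p k + (m : ℤ) * c := by linarith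
    rw [← m2d_cz_spec, this, m2d_sig_eq_s16]
    push_cast
    ring
  have hmn : m = eisensteinNumerator p := Nat.dvd_antisymm h6 h1
  have hcard := m2d_card_quot (m2d_phi p) (m2d_phi_surjective p) (m2d_eps p) m hm
  rw [hmn] at hcard
  exact hcard

end Eis

end Fermat.Agent.Lib.M2
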