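/-
S16 / M2, trace package (helper1), part 1: the explicit trace from prime level `p` to level one:
`trace p k f = f + ∑_{j<p} f ∣[k] (S * T^j)` (on top of `Lib/RR/Coset`).
-/
import Fermat.Agent.Lib.RR.Coset
import Fermat.Agent.Lib.RR.CosetsIndex

set_option autoImplicit false

open UpperHalfPlane ModularForm CongruenceSubgroup Matrix.SpecialLinearGroup ModularGroup
open scoped MatrixGroups Manifold

namespace Fermat.Agent.Lib.M2.Tr

open Fermat.Agent.Lib.RR Fermat.Agent.Lib.RR.Cosets

/-- The coset representatives `(S * T^j)⁻¹`. -/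
noncomputable def m2t_rep (j : ℕ) : SL(2, ℤ) := (S * T ^ j)⁻¹

theorem m2t_ST_apply (j : ℕ) : (S * T ^ j : SL(2, ℤ)).1 = !![0, -1; 1, (j : ℤ)] := by
  have hT : (T ^ j : SL(2, ℤ)).1 = !![1, (j : ℤ); 0, 1] := by
    have := ModularGroup.coe_T_zpow (j : ℤ)
    rwa [zpow_natCast] at this
  rw [Matrix.SpecialLinearGroup.coe_mul, hT, ModularGroup.coe_S]
  ext a b
  fin_cases a <;> fin_cases b <;> simp [Matrix.mul_apply, Fin.sum_univ_two]

theorem m2t_rep_apply_zero_zero (j : ℕ) : m2t_rep j 0 0 = (j : ℤ) := by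
  unfold m2t_rep
  have h : (S * T ^ j : SL(2, ℤ)) 1 1 = (j : ℤ) := by
    show (S * T ^ j : SL(2, ℤ)).1 1 1 = (j : ℤ)
    rw [m2t_ST_apply]
    rfl
  rw [Matrix.SpecialLinearGroup.SL2_inv_expl]
  simpa using h

theorem m2t_rep_apply_one_zero (j : ℕ) : m2t_rep j 1 0 = -1 := by
  unfold m2t_rep
  have h : (S * T ^ j : SL(2, ℤ)) 1 0 = 1 := by
    show (S * T ^ j : SL(2, ℤ)).1 1 0 = 1
    rw [m2t_ST_apply]
    rfl
  rw [Matrix.SpecialLinearGroup.SL2_inv_expl]
  simpa using h

variable (p : ℕ) [hp : Fact p.Prime]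

instance m2t_neZero : NeZero p := ⟨hp.out.ne_zero⟩

/-- The parametrisation of the cosets of `Γ₀(p)` by `{∞} ∪ {0, …, p-1}`. -/
noncomputable def m2t_cosetMap : Option (Fin p) → Q p
  | none => ((1 : SL(2, ℤ)) : Q p)
  | some j => ((m2t_rep j : SL(2, ℤ)) : Q p)

theorem m2t_cosetMap_injective : Function.Injective (m2t_cosetMap p) := by
  have hp1 : (1 : ℤ) < p := by exact_mod_cast hp.out.one_lt
  rintro (_ | i) (_ | j) h
  · rfl
  · exfalso
    simp only [m2t_cosetMap] at h
    rw [mk_eq_mk_iff_dvd] at h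
    unfold cross at h
    rw [m2t_rep_apply_zero_zero, m2t_rep_apply_one_zero] at h
    simp only [Matrix.SpecialLinearGroup.coe_one, Matrix.one_apply_eq, one_mul, ne_eq,
      one_ne_zero, not_false_eq_true, Matrix.one_apply_ne, zero_mul, sub_zero] at h
    have := Int.le_of_dvd (by norm_num) ((dvd_neg (a := (p : ℤ)) (b := 1)).mp h)
    omega
  · exfalso
    simp only [m2t_cosetMap] at h
    rw [mk_eq_mk_iff_dvd] at h
    unfold cross at h
    rw [m2t_rep_apply_zero_zero, m2t_rep_apply_one_zero] at h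
    simp only [Matrix.SpecialLinearGroup.coe_one, Matrix.one_apply_eq, mul_one, ne_eq,
      one_ne_zero, not_false_eq_true, Matrix.one_apply_ne, mul_zero, zero_sub, neg_neg] at h
    have := Int.le_of_dvd (by norm_num) h
    omega
  · simp only [m2t_cosetMap] at h
    rw [mk_eq_mk_iff_dvd] at h
    unfold cross at h
    rw [m2t_rep_apply_zero_zero, m2t_rep_apply_one_zero, m2t_rep_apply_zero_zero,
      m2t_rep_apply_one_zero] at h
    have hi := i.2
    have hj := j.2
    have h2 : (p : ℤ) ∣ (j : ℤ) - (i : ℤ) := by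
      convert h using 1
      ring
    have : (i : ℕ) = (j : ℕ) := by
      rcases h2 with ⟨c, hc⟩
      have hc0 : c = 0 := by
        by_contra hne
        rcases lt_or_gt_of_ne hne with hlt | hgt
        · have : (p : ℤ) * c ≤ (p : ℤ) * (-1) :=
            mul_le_mul_of_nonneg_left (by omega) (by omega)
          omega
        · have : (p : ℤ) * 1 ≤ (p : ℤ) * c :=
            mul_le_mul_of_nonneg_left (by omega) (by omega)
          omega
      rw [hc0, mul_zero] at hc
      omega
    exact congrArg some (Fin.ext this)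

theorem m2t_card_Q : Fintype.card (Q p) = p + 1 := by
  rw [← Nat.card_eq_fintype_card, card_quotient_Gamma0 p]
  have := dedekindPsi_prime_pow hp.out (k := 1) one_pos
  simpa using this

theorem m2t_cosetMap_bijective : Function.Bijective (m2t_cosetMap p) := by
  rw [Fintype.bijective_iff_injective_and_card]
  refine ⟨m2t_cosetMap_injective p, ?_⟩
  rw [m2t_card_Q, Fintype.card_option, Fintype.card_fin]

/-- **The trace from prime level to level one, explicitly.** -/
theorem m2t_trace_prime (k : ℤ) (f : ℍ → ℂ) (hf : IsInv p k f) :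
    trace p k f = f + ∑ j ∈ Finset.range p, f ∣[k] (S * T ^ j) := by
  unfold trace
  rw [← (Equiv.ofBijective _ (m2t_cosetMap_bijective p)).sum_comp, Fintype.sum_option]
  simp only [Equiv.ofBijective_apply, m2t_cosetMap]
  rw [cosetFun_one hf, ← Fin.sum_univ_eq_sum_range (fun j => f ∣[k] (S * T ^ j)) p]
  congr 1
  refine Finset.sum_congr rfl fun j _ => ?_
  rw [cosetFun_mk hf, m2t_rep, inv_inv]

end Fermat.Agent.Lib.M2.Tr
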