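/-
S16 / M2, trace package (helper1), part 2: the Fricke involution in weight `2` and prime level:
`G ∣[2] W = - U_p G`, hence `G ∣[2] (S * T^j) = -((U_p G) ∣[2] heckeMatrix p j)`.
-/
import Fermat.Agent.Lib.M2.TrCoset
import Fermat.Prelude.Def_ModularForm_HeckeOperatorForms

set_option autoImplicit false

open UpperHalfPlane ModularForm CongruenceSubgroup Matrix.SpecialLinearGroup ModularGroup
open scoped MatrixGroups Manifold Pointwise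

namespace Fermat.Agent.Lib.M2.Tr

open Fermat.Agent.Lib.RR Fermat.Agent.Lib.RR.Cosets

variable (p : ℕ) [hp : Fact p.Prime]

/-- The Fricke matrix `W = S · diag(p, 1) = !![0, -1; p, 0]`. -/
noncomputable def m2t_W : GL (Fin 2) ℝ := mapGL ℝ S * heckeDiagMatrix p

theorem m2t_mapGL_val (γ : SL(2, ℤ)) :
    ((mapGL ℝ γ : GL (Fin 2) ℝ) : Matrix (Fin 2) (Fin 2) ℝ) =
      !![(γ 0 0 : ℝ), (γ 0 1 : ℝ); (γ 1 0 : ℝ), (γ 1 1 : ℝ)] := by
  rw [mapGL_coe_matrix]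
  ext a b
  fin_cases a <;> fin_cases b <;> simp

theorem m2t_W_val : ((m2t_W p : GL (Fin 2) ℝ) : Matrix (Fin 2) (Fin 2) ℝ) = !![0, -1; (p : ℝ), 0] := by
  unfold m2t_W
  rw [Matrix.GeneralLinearGroup.coe_mul, m2t_mapGL_val, val_heckeDiagMatrix hp.out.ne_zero]
  have hS : (S : SL(2, ℤ)).1 = !![0, -1; 1, 0] := ModularGroup.coe_S
  have h00 : (S : SL(2, ℤ)) 0 0 = 0 := by show (S : SL(2, ℤ)).1 0 0 = 0; rw [hS]; rfl
  have h01 : (S : SL(2, ℤ)) 0 1 = -1 := by show (S : SL(2, ℤ)).1 0 1 = -1; rw [hS]; rfl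
  have h10 : (S : SL(2, ℤ)) 1 0 = 1 := by show (S : SL(2, ℤ)).1 1 0 = 1; rw [hS]; rfl
  have h11 : (S : SL(2, ℤ)) 1 1 = 0 := by show (S : SL(2, ℤ)).1 1 1 = 0; rw [hS]; rfl
  rw [h00, h01, h10, h11]
  ext a b
  fin_cases a <;> fin_cases b <;> simp [Matrix.mul_apply, Fin.sum_univ_two]

/-- The `W`-conjugate of an element of `Γ₀(p)`. -/
def m2t_conj (γ : SL(2, ℤ)) (c' : ℤ) (hc : γ 1 0 = p * c') : SL(2, ℤ) :=
  ⟨!![γ 1 1, -c'; -(p * γ 0 1), γ 0 0], by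
    have hdet := Fermat.Agent.Lib.RR.Cosets.det_eq γ
    rw [Matrix.det_fin_two_of]
    rw [hc] at hdet
    linarith⟩

theorem m2t_conj_mem (γ : SL(2, ℤ)) (c' : ℤ) (hc : γ 1 0 = p * c') :
    m2t_conj p γ c' hc ∈ Gamma0 p := by
  rw [Gamma0_mem]
  simp [m2t_conj]

theorem m2t_W_mul (γ : SL(2, ℤ)) (c' : ℤ) (hc : γ 1 0 = p * c') :
    m2t_W p * mapGL ℝ γ = mapGL ℝ (m2t_conj p γ c' hc) * m2t_W p := by
  apply Matrix.GeneralLinearGroup.ext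
  intro a b
  rw [Matrix.GeneralLinearGroup.coe_mul, Matrix.GeneralLinearGroup.coe_mul, m2t_W_val,
    m2t_mapGL_val, m2t_mapGL_val]
  have hc' : (γ 1 0 : ℝ) = p * c' := by exact_mod_cast congrArg (Int.cast : ℤ → ℝ) hc
  fin_cases a <;> fin_cases b <;>
    simp [Matrix.mul_apply, Fin.sum_univ_two, m2t_conj, hc'] <;> ring

/-- `W` normalises `Γ₀(p)` (one inclusion suffices). -/
theorem m2t_le_conj :
    ((Gamma0 p : Subgroup SL(2, ℤ)) : Subgroup (GL (Fin 2) ℝ)) ≤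
      ConjAct.toConjAct (m2t_W p)⁻¹ • ((Gamma0 p : Subgroup SL(2, ℤ)) : Subgroup (GL (Fin 2) ℝ)) := by
  rintro _ ⟨γ, hγ, rfl⟩
  rw [Subgroup.mem_pointwise_smul_iff_inv_smul_mem, ← map_inv, inv_inv, ConjAct.smul_def,
    ConjAct.ofConjAct_toConjAct]
  have hdvd : (p : ℤ) ∣ γ 1 0 := by
    have := (Gamma0_mem.mp hγ)
    exact (ZMod.intCast_zmod_eq_zero_iff_dvd _ _).mp this
  obtain ⟨c', hc⟩ := hdvd
  refine ⟨m2t_conj p γ c' hc, m2t_conj_mem p γ c' hc, ?_⟩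
  show mapGL ℝ (m2t_conj p γ c' hc) = m2t_W p * mapGL ℝ γ * (m2t_W p)⁻¹
  rw [m2t_W_mul p γ c' hc, mul_inv_cancel_right]

/-- `G ∣[2] W` as a modular form of level `Γ₀(p)`. -/
noncomputable def m2t_H (G : ModularForm (Gamma0 p) 2) : ModularForm (Gamma0 p) 2 :=
  restrictMF (m2t_le_conj p) (ModularForm.translate G (m2t_W p))

theorem m2t_coe_H (G : ModularForm (Gamma0 p) 2) : ⇑(m2t_H p G) = ⇑G ∣[(2 : ℤ)] m2t_W p := rfl

/-- Scalar matrices act trivially in weight `2`. -/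
theorem m2t_slash_scalar (u : ℝˣ) (f : ℍ → ℂ) :
    f ∣[(2 : ℤ)] (Matrix.GeneralLinearGroup.scalar (Fin 2) u) = f := by
  ext τ
  have hdet : ((Matrix.GeneralLinearGroup.scalar (Fin 2) u).det : ℝ) = (u : ℝ) ^ 2 := by
    rw [Matrix.GeneralLinearGroup.det_scalar]
    simp
  have hu : (u : ℝ) ≠ 0 := u.ne_zero
  have hsq : (0 : ℝ) < (u : ℝ) ^ 2 := by positivity
  have hpos : 0 < ((Matrix.GeneralLinearGroup.scalar (Fin 2) u).det : ℝ) := by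
    rw [hdet]
    exact hsq
  rw [ModularForm.slash_apply, UpperHalfPlane.σ, if_pos hpos, glScalar_smul, denom_scalar, hdet]
  simp only [ContinuousAlgEquiv.refl_apply]
  have habs : |(u : ℝ) ^ 2| = (u : ℝ) ^ 2 := abs_of_pos hsq
  rw [habs]
  have huc : ((u : ℝ) : ℂ) ≠ 0 := by exact_mod_cast hu
  push_cast
  field_simp

theorem m2t_ST_entries (j : ℕ) :
    (S * T ^ j : SL(2, ℤ)) 0 0 = 0 ∧ (S * T ^ j : SL(2, ℤ)) 0 1 = -1 ∧
      (S * T ^ j : SL(2, ℤ)) 1 0 = 1 ∧ (S * T ^ j : SL(2, ℤ)) 1 1 = (j : ℤ) := by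
  have h := m2t_ST_apply j
  refine ⟨?_, ?_, ?_, ?_⟩
  · show (S * T ^ j : SL(2, ℤ)).1 0 0 = 0
    rw [h]; rfl
  · show (S * T ^ j : SL(2, ℤ)).1 0 1 = -1
    rw [h]; rfl
  · show (S * T ^ j : SL(2, ℤ)).1 1 0 = 1
    rw [h]; rfl
  · show (S * T ^ j : SL(2, ℤ)).1 1 1 = (j : ℤ)
    rw [h]; rfl

/-- `W · S T^j = (-1) · heckeMatrix p j`. -/
theorem m2t_W_mul_ST (j : ℕ) :
    m2t_W p * mapGL ℝ (S * T ^ j) = mapGL ℝ (-1 : SL(2, ℤ)) * heckeMatrix p j := by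
  apply Matrix.GeneralLinearGroup.ext
  intro a b
  obtain ⟨h00, h01, h10, h11⟩ := m2t_ST_entries j
  rw [Matrix.GeneralLinearGroup.coe_mul, Matrix.GeneralLinearGroup.coe_mul, m2t_W_val,
    m2t_mapGL_val, m2t_mapGL_val, val_heckeMatrix hp.out.ne_zero, h00, h01, h10, h11]
  fin_cases a <;> fin_cases b <;> simp [Matrix.mul_apply, Fin.sum_univ_two]

/-- `p · S T^j = W · heckeMatrix p j`. -/
theorem m2t_scalar_mul_ST (u : ℝˣ) (hu : (u : ℝ) = p) (j : ℕ) :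
    Matrix.GeneralLinearGroup.scalar (Fin 2) u * mapGL ℝ (S * T ^ j) =
      m2t_W p * heckeMatrix p j := by
  apply Matrix.GeneralLinearGroup.ext
  intro a b
  obtain ⟨h00, h01, h10, h11⟩ := m2t_ST_entries j
  have hsc : (Matrix.scalar (Fin 2)) (u : ℝ) = !![(u : ℝ), 0; 0, (u : ℝ)] := by
    ext a b
    fin_cases a <;> fin_cases b <;> simp [Matrix.scalar_apply]
  rw [Matrix.GeneralLinearGroup.coe_mul, Matrix.GeneralLinearGroup.coe_mul, m2t_W_val,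
    m2t_mapGL_val, val_heckeMatrix hp.out.ne_zero, h00, h01, h10, h11,
    Matrix.GeneralLinearGroup.coe_scalar, hsc, hu]
  fin_cases a <;> fin_cases b <;> simp [Matrix.mul_apply, Fin.sum_univ_two, mul_comm]

theorem m2t_MF1_two_eq_zero {f : ℍ → ℂ} (hf : f ∈ MF1 2) : f = 0 := by
  obtain ⟨F, rfl⟩ := hf
  have h := ModularForm.levelOne_weight_two_rank_zero
  rw [rank_zero_iff_forall_zero] at h
  rw [h F]
  rfl

/-- **Fricke = -U_p in weight 2**: `G ∣[2] W = - U_p G`. -/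
theorem m2t_slash_W (G : ModularForm (Gamma0 p) 2) :
    ⇑G ∣[(2 : ℤ)] m2t_W p = -heckeU 2 p ⇑G := by
  have hH : ⇑(m2t_H p G) ∈ MF p 2 := coe_mem_MF _
  have h0 : trace p 2 ⇑(m2t_H p G) = 0 := m2t_MF1_two_eq_zero (trace_mem_MF1 hH)
  rw [m2t_trace_prime p 2 _ (isInv_of_mem_MF hH)] at h0
  have hterm : ∀ j : ℕ, ⇑(m2t_H p G) ∣[(2 : ℤ)] (S * T ^ j) = ⇑G ∣[(2 : ℤ)] heckeMatrix p j := by
    intro j
    rw [m2t_coe_H, ModularForm.SL_slash, ← SlashAction.slash_mul]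
    show ⇑G ∣[(2 : ℤ)] (m2t_W p * mapGL ℝ (S * T ^ j)) = _
    rw [m2t_W_mul_ST, SlashAction.slash_mul]
    congr 1
    exact G.slash_action_eq' _ (neg_one_mem_Gamma0 p |> fun h => by
      have : (mapGL ℝ (-1 : SL(2, ℤ)) : GL (Fin 2) ℝ) = -1 := by
        ext i j
        simp
      rw [this]
      exact h)
  simp_rw [hterm] at h0
  rw [m2t_coe_H] at h0
  rw [heckeU_def]
  exact eq_neg_of_add_eq_zero_left h0

/-- **KIT core**: the conjugates of a weight `2` form of prime level `p` under the nontrivial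
cosets: `G ∣[2] (S T^j) = -((U_p G) ∣[2] heckeMatrix p j)`. -/
theorem m2t_slash_ST (G : ModularForm (Gamma0 p) 2) (j : ℕ) :
    ⇑G ∣[(2 : ℤ)] (S * T ^ j : SL(2, ℤ)) = -((heckeU 2 p ⇑G) ∣[(2 : ℤ)] heckeMatrix p j) := by
  have hp0 : (p : ℝ) ≠ 0 := by exact_mod_cast hp.out.ne_zero
  let u : ℝˣ := Units.mk0 (p : ℝ) hp0
  have h1 : ⇑G ∣[(2 : ℤ)] (S * T ^ j : SL(2, ℤ)) =
      (⇑G ∣[(2 : ℤ)] (Matrix.GeneralLinearGroup.scalar (Fin 2) u)) ∣[(2 : ℤ)]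
        (mapGL ℝ (S * T ^ j)) := by
    rw [m2t_slash_scalar]
    rfl
  rw [h1, ← SlashAction.slash_mul, m2t_scalar_mul_ST p u rfl j, SlashAction.slash_mul,
    m2t_slash_W, SlashAction.neg_slash]

end Fermat.Agent.Lib.M2.Tr
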