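/-
S16 / M2, trace package (helper1), part 3: `U_p ∘ U_p = 1` on `M₂(Γ₀(p))`.
-/
import Fermat.Agent.Lib.M2.TrW
import Fermat.Agent.Lib.M2.HTForms
import Fermat.Prelude.Thm_ModularFormClass_qCoeff_heckeU

set_option autoImplicit false

open UpperHalfPlane ModularForm CongruenceSubgroup Matrix.SpecialLinearGroup ModularGroup
  ModularFormClass
open scoped MatrixGroups Manifold Pointwise

namespace Fermat.Agent.Lib.M2.Tr

open Fermat.Agent.Lib.RR Fermat.Agent.Lib.RR.Cosets Fermat.Agent.Lib.M2.HT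

variable (p : ℕ) [hp : Fact p.Prime]

/-- `W² = -p`. -/
theorem m2t_W_mul_W (u : ℝˣ) (hu : (u : ℝ) = -p) :
    m2t_W p * m2t_W p = Matrix.GeneralLinearGroup.scalar (Fin 2) u := by
  apply Matrix.GeneralLinearGroup.ext
  intro a b
  have hsc : (Matrix.scalar (Fin 2)) (u : ℝ) = !![(u : ℝ), 0; 0, (u : ℝ)] := by
    ext a b
    fin_cases a <;> fin_cases b <;> simp [Matrix.scalar_apply]
  rw [Matrix.GeneralLinearGroup.coe_mul, m2t_W_val, Matrix.GeneralLinearGroup.coe_scalar, hsc, hu]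
  fin_cases a <;> fin_cases b <;> simp [Matrix.mul_apply, Fin.sum_univ_two]

/-- `U_p G` as a form. -/
noncomputable def m2t_U (G : ModularForm (Gamma0 p) 2) : ModularForm (Gamma0 p) 2 :=
  ModularForm.heckeULin 2 (dvd_refl p) G

theorem m2t_coe_U (G : ModularForm (Gamma0 p) 2) : ⇑(m2t_U p G) = heckeU 2 p ⇑G := rfl

/-- **`U_p² = 1` on `M₂(Γ₀(p))`.** -/
theorem m2t_U_U (G : ModularForm (Gamma0 p) 2) : m2t_U p (m2t_U p G) = G := by
  apply DFunLike.coe_injective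
  rw [m2t_coe_U]
  have hp0 : (-(p : ℝ)) ≠ 0 := by
    have : (p : ℝ) ≠ 0 := by exact_mod_cast hp.out.ne_zero
    exact neg_ne_zero.mpr this
  let u : ℝˣ := Units.mk0 (-(p : ℝ)) hp0
  have h1 : ⇑G ∣[(2 : ℤ)] (m2t_W p * m2t_W p) = ⇑G := by
    rw [m2t_W_mul_W p u rfl, m2t_slash_scalar]
  rw [SlashAction.slash_mul, m2t_slash_W, SlashAction.neg_slash, ← m2t_coe_U, m2t_slash_W,
    neg_neg] at h1
  exact h1

theorem m2t_qCoeff_U (G : ModularForm (Gamma0 p) 2) (n : ℕ) :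
    qCoeff ⇑(m2t_U p G) n = qCoeff ⇑G (n * p) := by
  rw [m2t_coe_U, ModularFormClass.qCoeff_heckeU G (m2h_one_mem_strictPeriods p) hp.out.ne_zero n]
  rfl

/-- Lead's (i): `g (p * p * n) = g n`. -/
theorem m2t_qCoeff_sq_mul (G : ModularForm (Gamma0 p) 2) (n : ℕ) :
    qCoeff ⇑G (p * p * n) = qCoeff ⇑G n := by
  have h : qCoeff ⇑(m2t_U p (m2t_U p G)) n = qCoeff ⇑G n := by rw [m2t_U_U]
  rw [m2t_qCoeff_U, m2t_qCoeff_U] at h
  rw [← h]
  congr 1
  ring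

end Fermat.Agent.Lib.M2.Tr
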