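/-
S16 / M2, trace package (helper1), part 4: the trace of `G²` to level one and the lead's
coefficient identity `s16_TrSq p g`.
-/
import Fermat.Agent.Lib.M2.TrUU
import Fermat.Agent.Lib.S16.BLevel1b
import Fermat.Agent.Lib.S16.TrSqArith
import Fermat.Agent.Lib.S16.Iface2

set_option autoImplicit false

open UpperHalfPlane ModularForm CongruenceSubgroup Matrix.SpecialLinearGroup ModularGroup
  ModularFormClass
open scoped MatrixGroups Manifold Pointwise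

namespace Fermat.Agent.Lib.M2.Tr

open Fermat.Agent.Lib.RR Fermat.Agent.Lib.RR.Cosets Fermat.Agent.Lib.M2.HT Fermat.Agent.Lib.S16

variable (p : ℕ) [hp : Fact p.Prime]

theorem m2t_sq_slash_heckeMatrix (f : ℍ → ℂ) (j : ℕ) :
    (f ∣[(2 : ℤ)] heckeMatrix p j) * (f ∣[(2 : ℤ)] heckeMatrix p j) =
      (p : ℂ)⁻¹ • ((f * f) ∣[(2 + 2 : ℤ)] heckeMatrix p j) := by
  ext τ
  simp only [Pi.mul_apply, Pi.smul_apply, smul_eq_mul, slash_heckeMatrix_apply _ hp.out.ne_zero]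
  ring

/-- **The trace of `G²` to level one**: `Tr(G²) = G² + p⁻¹ · U_p((U_p G)²)`. -/
theorem m2t_trace_sq (G : ModularForm (Gamma0 p) 2) :
    trace p (2 + 2) (⇑G * ⇑G) =
      ⇑G * ⇑G + (p : ℂ)⁻¹ • heckeU (2 + 2) p (heckeU 2 p ⇑G * heckeU 2 p ⇑G) := by
  have hGG : ⇑G * ⇑G ∈ MF p (2 + 2) := mul_mem_MF (coe_mem_MF G) (coe_mem_MF G)
  rw [m2t_trace_prime p (2 + 2) _ (isInv_of_mem_MF hGG)]
  congr 1
  rw [heckeU_def, Finset.smul_sum]
  refine Finset.sum_congr rfl fun j _ => ?_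
  rw [ModularForm.mul_slash_SL2, m2t_slash_ST, neg_mul_neg, m2t_sq_slash_heckeMatrix]

/-- The level `p` form `G² + p⁻¹ · U_p((U_p G)²)`. -/
noncomputable def m2t_R (G : ModularForm (Gamma0 p) 2) : ModularForm (Gamma0 p) (2 + 2) :=
  G.mul G + (p : ℂ)⁻¹ • ModularForm.heckeULin (2 + 2) (dvd_refl p) ((m2t_U p G).mul (m2t_U p G))

theorem m2t_coe_R (G : ModularForm (Gamma0 p) 2) :
    ⇑(m2t_R p G) =
      ⇑G * ⇑G + (p : ℂ)⁻¹ • heckeU (2 + 2) p (heckeU 2 p ⇑G * heckeU 2 p ⇑G) := by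
  rfl

theorem m2t_qCoeff_R (G : ModularForm (Gamma0 p) 2) (n : ℕ) :
    qCoeff ⇑(m2t_R p G) n =
      ∑ x ∈ Finset.HasAntidiagonal.antidiagonal n, qCoeff ⇑G x.1 * qCoeff ⇑G x.2 +
        (p : ℂ)⁻¹ * ∑ x ∈ Finset.HasAntidiagonal.antidiagonal (n * p),
          qCoeff ⇑G (x.1 * p) * qCoeff ⇑G (x.2 * p) := by
  unfold m2t_R
  rw [m2h_qCoeff_add, m2h_qCoeff_smul, m2h_qCoeff_mul, ModularForm.coe_heckeULin_apply,
    ModularFormClass.qCoeff_heckeU _ (m2h_one_mem_strictPeriods p) hp.out.ne_zero n]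
  show _ + _ * qCoeff ⇑((m2t_U p G).mul (m2t_U p G)) (n * p) = _
  rw [m2h_qCoeff_mul]
  simp only [m2t_qCoeff_U]

/-- The level-one form with the same underlying function. -/
theorem m2t_exists_levelOne (G : ModularForm (Gamma0 p) 2) :
    ∃ T : ModularForm 𝒮ℒ 4, ⇑T = ⇑(m2t_R p G) := by
  have hGG : ⇑G * ⇑G ∈ MF p (2 + 2) := mul_mem_MF (coe_mem_MF G) (coe_mem_MF G)
  have h := trace_mem_MF1 hGG
  rw [m2t_trace_sq, ← m2t_coe_R] at h
  have key : ∀ (k : ℤ) (_ : k = 4) (f : ℍ → ℂ), f ∈ MF1 k → ∃ T : ModularForm 𝒮ℒ 4, ⇑T = f := by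
    intro k hk f hf
    subst hk
    exact hf
  exact key _ (by norm_num) _ h

/-- **Lead's (ii)**: the coefficient identity `p·G² + U_p((U_pG)²) = (p+1)·a₀²·E₄`. -/
theorem m2t_TrSq (G : ModularForm (Gamma0 p) 2) (g : ℕ → ℤ)
    (hG : ∀ n, qCoeff ⇑G n = (g n : ℂ)) : s16_TrSq p g := by
  intro n hn
  obtain ⟨T, hT⟩ := m2t_exists_levelOne p G
  have h1 := s16b_qCoeff_weight_four T hn
  rw [hT, m2t_qCoeff_R, m2t_qCoeff_R] at h1
  simp only [zero_mul, Finset.Nat.antidiagonal_zero, Finset.sum_singleton, hG] at h1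
  have hp0 : (p : ℂ) ≠ 0 := by exact_mod_cast hp.out.ne_zero
  have hpp : (p : ℂ) * (p : ℂ)⁻¹ = 1 := mul_inv_cancel₀ hp0
  apply Int.cast_injective (α := ℂ)
  push_cast
  have h2 : (∑ x ∈ Finset.HasAntidiagonal.antidiagonal (p * n),
        (g (p * x.1) : ℂ) * (g (p * x.2) : ℂ)) =
      ∑ x ∈ Finset.HasAntidiagonal.antidiagonal (n * p),
        (g (x.1 * p) : ℂ) * (g (x.2 * p) : ℂ) := by
    rw [mul_comm p n]
    exact Finset.sum_congr rfl fun x _ => by rw [mul_comm p x.1, mul_comm p x.2]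
  rw [h2]
  generalize (∑ x ∈ Finset.HasAntidiagonal.antidiagonal n, (g x.1 : ℂ) * (g x.2 : ℂ)) = A at h1 ⊢
  generalize (∑ x ∈ Finset.HasAntidiagonal.antidiagonal (n * p),
    (g (x.1 * p) : ℂ) * (g (x.2 * p) : ℂ)) = B at h1 ⊢
  linear_combination (p : ℂ) * h1 -
    (B - (g 0 : ℂ) ^ 2 * (240 * ((ArithmeticFunction.sigma 3 n : ℕ) : ℂ))) * hpp

theorem m2t_TrSq_U (G : ModularForm (Gamma0 p) 2) (g : ℕ → ℤ)
    (hG : ∀ n, qCoeff ⇑G n = (g n : ℂ)) : s16_TrSq p (fun n => g (p * n)) := by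
  refine m2t_TrSq p (m2t_U p G) _ fun n => ?_
  rw [m2t_qCoeff_U, hG, mul_comm]

theorem m2t_sq_mul (G : ModularForm (Gamma0 p) 2) (g : ℕ → ℤ)
    (hG : ∀ n, qCoeff ⇑G n = (g n : ℂ)) (n : ℕ) : g (p * p * n) = g n := by
  have h := m2t_qCoeff_sq_mul p G n
  rw [hG, hG] at h
  exact_mod_cast h

/-- **N3**: `s16_NoG p 3 1` for `p ≡ 1 mod 3`. -/
theorem m2t_noG_three (hp3 : p % 3 = 1) : s16_NoG p 3 1 := by
  rintro ⟨G, g, j, hG, h0, h0', hg⟩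
  exact s16_trsq_three hp.out hp3 g j (by exact_mod_cast h0) (by exact_mod_cast h0')
    (fun n hn => by exact_mod_cast hg n hn) (m2t_sq_mul p G g hG) (m2t_TrSq p G g hG)
    (m2t_TrSq_U p G g hG)

/-- **N5**: `s16_NoG p 2 2` for `p ≡ 1 mod 4`. -/
theorem m2t_noG_two (hp4 : p % 4 = 1) : s16_NoG p 2 2 := by
  rintro ⟨G, g, j, hG, h0, h0', hg⟩
  exact s16_trsq_two hp.out hp4 g j (by exact_mod_cast h0) (by exact_mod_cast h0')
    (fun n hn => by exact_mod_cast hg n hn) (m2t_sq_mul p G g hG) (m2t_TrSq p G g hG)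
    (m2t_TrSq_U p G g hG)

end Fermat.Agent.Lib.M2.Tr
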