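/-
S16 / M2, trace package (helper1), part 5: the lead's trace interface `s16_IfaceTr p`.
-/
import Fermat.Agent.Lib.M2.TrSq
import Fermat.Agent.Lib.S16.TrSqNoG

set_option autoImplicit false

open ModularForm CongruenceSubgroup ModularFormClass

namespace Fermat.Agent.Lib.M2.Tr

open Fermat.Agent.Lib.S16

/-- The trace interface of `Lib/S16/TrSqNoG`. -/
theorem m2t_ifaceTr (p : ℕ) [hp : Fact p.Prime] : s16_IfaceTr p := by
  intro G g hG
  refine ⟨m2t_sq_mul p G g hG, m2t_TrSq p G g hG, m2t_U p G, fun n => ?_⟩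
  rw [m2t_qCoeff_U, hG, mul_comm]

end Fermat.Agent.Lib.M2.Tr
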